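/-
S56 block (F), F-D: the abstract form of D2 and D3 ("a wildly ramified extension class of small level is not flat").

`𝒟` a dual pair over the inertia group `I` on `X`;  `jj : F → X` an injective additive map whose image `Y1` is an `I`-stable "fundamental line":
`d0` acts by the generator `m` of `F^×`, `Gam0` acts trivially, and `s(y) ≤ ν` on `Y1 \ 0` (this is A10).
`x1 ∈ X` with `s x1 - x1 = jj (χ s)` for `s ∈ Gam0`.  `A ≤ F` a subgroup such that the stabiliser in `Gam0` of a Kummer root `β` of exact level `j` maps into `A`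
under `χ`, and `χ γ ∉ A` for some `γ ∈ Gam0`.  Then `p² + p ≤ j + p #A`.
-/
import Fermat.Agent.S56.F.LF.Depth
import Fermat.Agent.S56.F.Order.Points
import Fermat.Agent.S56.F.Order.SubQuot

set_option autoImplicit false

open Fermat.Agent.PT.Local

noncomputable section

namespace Fermat.Agent.S56.F.SS

variable {P : Plc} {C : LamCtx P} {F : Type} [Field F] [Finite F]
  {X X' : Type} [AddCommGroup X] [AddCommGroup X'] [Finite X] [Finite X']

/-- `jj : F → X` is a fundamental line of the dual pair `𝒟` (over inertia): `d0` acts by `m`, `Gam0` trivially. -/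
structure IsFLine (C : LamCtx P) (𝒟 : DualPair P P.ine X X') (jj : F →+ X) (m : F) : Prop where
  inj : Function.Injective jj
  act_d0 : ∀ x, 𝒟.act ⟨C.d0, C.hd0⟩ (jj x) = jj (m * x)
  act_Gam0 : ∀ s : P.ine, (s : GQ) ∈ C.Gam0 → ∀ x, 𝒟.act s (jj x) = jj x
  gen : ∀ x : F, x ≠ 0 → ∃ n : ℕ, x = m ^ n
  /-- A10: `s(y) ≤ ν` -/
  sge : ∀ x : F, x ≠ 0 → ∀ a, 𝒟.Sge (jj x) a → Dv P a C.lam

variable {𝒟 : DualPair P P.ine X X'} {jj : F →+ X} {m : F}

/-- Step 1: a function `f0 ∈ H`, `f0 0 = 0`, with `f0 y ∣ λ` for ALL `y ∈ Y1 \ 0`.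
PROOF: `exists_attained` at `jj 1`: `f0` equivariant, `Sge (jj 1) (f0 (jj 1))`, so `f0 (jj 1) ∣ λ` by `sge`.  `f0 (jj (m^n)) = d0^[n] (f0 (jj 1))`
(induction with `act_d0` and equivariance) has the same valuation (`v_map`). -/
theorem IsFLine.exists_f0 (h : IsFLine C 𝒟 jj m) :
    ∃ f0 ∈ 𝒟.H, f0 0 = 0 ∧ ∀ x : F, x ≠ 0 → Dv P (f0 (jj x)) C.lam := by
  obtain ⟨f0, hf0, heq, h0, hS⟩ := 𝒟.exists_attained (jj 1)
  refine ⟨f0, hf0, h0, ?_⟩
  have h1 : Dv P (f0 (jj 1)) C.lam :=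
    h.sge 1 one_ne_zero _ ((hS _).mpr (Dv.refl P _))
  have hv : ∀ n : ℕ, P.v (f0 (jj (m ^ n))) = P.v (f0 (jj 1)) := by
    intro n
    induction n with
    | zero => rw [pow_zero]
    | succ n ih =>
      rw [pow_succ', ← h.act_d0, heq ⟨C.d0, C.hd0⟩ (jj (m ^ n))]
      show P.v (C.d0 (f0 (jj (m ^ n)))) = _
      rw [v_map P (ine_le_dec P C.hd0), ih]
  intro x hx
  obtain ⟨n, rfl⟩ := h.gen x hx
  show P.v C.lam ≤ P.v (f0 (jj (m ^ n)))
  rw [hv n]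
  exact h1

/-- Step 2: the norm.  `F1 x = ∏_{a ∈ A} f0 (x + jj a) ∈ H` is invariant under `jj A`, vanishes at `0`, and `F1 (jj z) ∣ λ^#A` for `z ∉ A`.
(`prod_translate_mem` with the finset `(A : Set F).toFinset.image jj`, or reindex.) -/
theorem IsFLine.exists_norm (h : IsFLine C 𝒟 jj m) (A : AddSubgroup F) :
    ∃ F1 ∈ 𝒟.H, F1 0 = 0 ∧ (∀ x, ∀ a ∈ A, F1 (x + jj a) = F1 x) ∧
      ∀ z : F, z ∉ A → Dv P (F1 (jj z)) (C.lam ^ Nat.card A) := by
  classical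
  obtain ⟨f0, hf0, h0, hdv⟩ := h.exists_f0
  letI : Fintype A := Fintype.ofFinite A
  have hinj : Function.Injective (fun a : A => jj (a : F)) :=
    fun a b hab => Subtype.ext (h.inj hab)
  have hprod : ∀ x : X, ∏ c ∈ Finset.univ.image (fun a : A => jj (a : F)), f0 (x + c)
      = ∏ a : A, f0 (x + jj (a : F)) := fun x =>
    Finset.prod_image (fun a _ b _ hab => hinj hab)
  refine ⟨fun x => ∏ c ∈ Finset.univ.image (fun a : A => jj (a : F)), f0 (x + c),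
    𝒟.prod_translate_mem hf0 _, ?_, ?_, ?_⟩
  · show ∏ c ∈ Finset.univ.image (fun a : A => jj (a : F)), f0 (0 + c) = 0
    rw [hprod]
    refine Finset.prod_eq_zero (Finset.mem_univ (0 : A)) ?_
    rw [AddSubgroup.coe_zero, map_zero, add_zero, h0]
  · intro x a ha
    show ∏ c ∈ Finset.univ.image (fun a : A => jj (a : F)), f0 (x + jj a + c)
      = ∏ c ∈ Finset.univ.image (fun a : A => jj (a : F)), f0 (x + c)
    rw [hprod, hprod]
    refine Fintype.prod_equiv (Equiv.addLeft (⟨a, ha⟩ : A)) _ _ ?_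
    intro b
    rw [Equiv.coe_addLeft, AddSubgroup.coe_add, map_add, add_assoc]
  · intro z hz
    show P.v (C.lam ^ Nat.card A)
      ≤ P.v (∏ c ∈ Finset.univ.image (fun a : A => jj (a : F)), f0 (jj z + c))
    rw [hprod, map_prod, map_pow, Nat.card_eq_fintype_card, ← Finset.card_univ,
      ← Finset.prod_const]
    refine Finset.prod_le_prod' ?_
    intro a _
    rw [← map_add]
    refine hdv _ ?_
    intro hza
    apply hz
    have : z = -(a : F) := eq_neg_of_add_eq_zero_left hza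
    rw [this]
    exact A.neg_mem a.2

/-- **Dabs.**
PROOF.  `𝒟0 = 𝒟.restrict Gam0_le_ine`, `C1 = A.map jj` (stable: trivial action), `𝒬 = 𝒟0.quot C1`.
`sge_of_depth` for `𝒬` at `mk x1`, `γ`, `w = (ζ-1)/(β-1)`: an integral `a` fixed by the stabiliser of `mk x1` is fixed by every `σ ∈ Gam0` with `σ β = β`
(because `𝒬.act σ (mk x1) = mk (x1 + jj (χ σ)) = mk x1`), so `Kum.depth` applies.  Hence `𝒬.Sge (mk (jj (χ γ))) w`.
`quot_sge_dv` with `F1` of `exists_norm`: `w ∣ F1 (jj (χ γ)) ∣ λ^#A`.  `le_of_dv`. -/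
theorem IsFLine.bound (h : IsFLine C 𝒟 jj m) (A : AddSubgroup F) (x1 : X) (χ : GQ → F)
    (hχ : ∀ s : P.ine, (s : GQ) ∈ C.Gam0 → 𝒟.act s x1 - x1 = jj (χ s))
    {ψ : GQ → ZMod P.ℓ} {β : Qb} (hβ : C.Kum ψ β) {j : ℕ} (hj : 1 ≤ j) (hj' : j < P.ℓ ^ 2 + P.ℓ) (hpj : ¬ P.ℓ ∣ j)
    (hu : P.v (β ^ P.ℓ - 1) = P.v C.lam ^ j)
    (hstab : ∀ s ∈ C.Gam0, s β = β → χ s ∈ A) {γ : GQ} (hγ : γ ∈ C.Gam0) (hγA : χ γ ∉ A) :
    P.ℓ ^ 2 + P.ℓ ≤ j + P.ℓ * Nat.card A := by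
  obtain ⟨F1, hF1, hF10, hinv, hdv⟩ := h.exists_norm A
  set 𝒟0 : DualPair P C.Gam0 X X' := 𝒟.restrict C.Gam0_le_ine with h𝒟0
  set C1 : AddSubgroup X := A.map jj with hC1
  have hact0 : ∀ (s : C.Gam0) (x : X), 𝒟0.act s x = 𝒟.act ⟨s.1, C.Gam0_le_ine s.2⟩ x := fun _ _ => rfl
  have hstable : 𝒟0.Stable C1 := by
    rintro s _ ⟨a, ha, rfl⟩
    rw [hact0, h.act_Gam0 ⟨s.1, C.Gam0_le_ine s.2⟩ s.2]
    exact ⟨a, ha, rfl⟩
  set 𝒬 := 𝒟0.quot C1 hstable with h𝒬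
  have hactx1 : ∀ s : C.Gam0, 𝒟0.act s x1 = x1 + jj (χ s.1) := by
    intro s
    rw [hact0, ← hχ ⟨s.1, C.Gam0_le_ine s.2⟩ s.2]
    abel
  have hS : 𝒬.Sge (𝒬.act ⟨γ, hγ⟩ (QuotientAddGroup.mk x1) - QuotientAddGroup.mk x1)
      ((C.zeta - 1) / (β - 1)) := by
    apply 𝒬.sge_of_depth
    intro a haA hfix
    refine hβ.depth hj hj' hpj hu ((P.A.valuation_le_one_iff a).2 haA) ?_ hγ
    intro s hs hsβ
    apply hfix
    refine ⟨hs, ?_⟩
    rw [h𝒬, 𝒟0.quot_act, hactx1, QuotientAddGroup.mk_add]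
    have : (QuotientAddGroup.mk (jj (χ s)) : X ⧸ C1) = 0 :=
      (QuotientAddGroup.eq_zero_iff _).2 ⟨_, hstab s hs hsβ, rfl⟩
    rw [this, add_zero]
  rw [h𝒬, 𝒟0.quot_act, hactx1, QuotientAddGroup.mk_add, add_sub_cancel_left] at hS
  have h1 : Dv P ((C.zeta - 1) / (β - 1)) (F1 (jj (χ γ)) - F1 0) := by
    refine 𝒟0.quot_sge_dv C1 hstable (F := F1) hF1 ?_ _ _ hS
    rintro x _ ⟨a, ha, rfl⟩
    exact hinv x a ha
  rw [hF10, sub_zero] at h1
  exact LamCtx.le_of_dv hj hj' hu (le_trans (hdv _ hγA) h1)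

end Fermat.Agent.S56.F.SS

end
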