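/-
S56 block (F), sub-block F-D: THE SUPERSINGULAR CASE.  Definitions.

`C : LamCtx P` (`λ, ζ, d0, φ`), `Gam0 = Stab_I(λ)`.  `F` = the field with `p²` elements, `k` an `F`-algebra (finite field),
`r : G →* GL₂(k)` in DIAGONAL FORM on inertia:  `r(d0) = diag(α, α^p)`, `α = t0 ∈ F`, `ι t0 = g0 = θ(λ,d0)` for an embedding
`ι : F → FF P`; `r = 1` on `Gam0`; `r(φ)` antidiagonal.
A local cocycle `c` is written `c(s) = (c0 c+; c- -c0)`, i.e. `c0 = c s 0 0`, `c- = c s 1 0`, `c+ = c s 0 1`.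
-/
import Fermat.Agent.S56.F.LF.Climb
import Fermat.Agent.S56.C.LocalDefs

set_option autoImplicit false

open Fermat.Agent.PT.Local Matrix
open Fermat.Agent.S53 (G M2)
open Fermat.Agent.S56.C (ad rm)

noncomputable section

namespace Fermat.Agent.S56.F.SS

/-- The supersingular datum (outcome of the classification F-0, CASE I, after conjugating `r`). -/
structure SSData {P : Plc} (C : LamCtx P) (F k : Type) [Field F] [Field k] [Algebra F k]
    (r : G →* GL (Fin 2) k) where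
  /-- the embedding of `F` in the residue field -/
  ι : F →+* FF P
  /-- the eigenvalue of `r(d0)` -/
  t0 : F
  cardF : Nat.card F = P.ℓ ^ 2
  hι : ι t0 = C.g0
  r_d0 : rm r C.d0 = !![algebraMap F k t0, 0; 0, algebraMap F k t0 ^ P.ℓ]
  r_Gam0 : ∀ s ∈ C.Gam0, r s = 1
  r_phi : ∃ a b : k, rm r C.phi = !![0, a; b, 0]
  smooth : ∃ N : Fld, FiniteDimensional ℚ N ∧ ∀ σ : G, (∀ x ∈ N, σ x = x) → r σ = 1

/-- Local cocycles: smooth trace zero 1-cocycles on the decomposition group `D = P.dec` (values outside `D` are irrelevant). -/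
structure LocCoc (P : Plc) {k : Type} [Field k] (r : G →* GL (Fin 2) k) (c : G → M2 k) : Prop where
  coc : ∀ g ∈ P.dec, ∀ h ∈ P.dec, c (g * h) = c g + ad (r g) (c h)
  smooth : ∃ N : Fld, FiniteDimensional ℚ N ∧ ∀ σ ∈ P.dec, (∀ x ∈ N, σ x = x) → c σ = 0
  tr0 : ∀ g ∈ P.dec, (c g).trace = 0

/-- `c` and `c'` are cohomologous on `D`. -/
def CobOn (P : Plc) {k : Type} [Field k] (r : G →* GL (Fin 2) k) (c : G → M2 k) : Prop :=
  ∃ X : M2 k, ∀ σ ∈ P.dec, c σ = ad (r σ) X - X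

/-- **The local condition in the supersingular case.**  `c0 = 0` on `Gam0` and all `τ ∘ l' ∘ c-` have level `≥ p² + 1`. -/
def LL {P : Plc} (C : LamCtx P) {F k : Type} [Field F] [Field k] [Algebra F k] (τ : F →+ ZMod P.ℓ)
    (r : G →* GL (Fin 2) k) (c : G → M2 k) : Prop :=
  LocCoc P r c ∧ (∀ s ∈ C.Gam0, c s 0 0 = 0) ∧
    ∀ l' : k →ₗ[F] F, C.LevGE (fun s => τ (l' (c s 1 0))) (P.ℓ ^ 2 + 1)

end Fermat.Agent.S56.F.SS

end
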