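/-
S56 block (F), F-D: basic calculus of local cocycles in the supersingular case.
-/
import Fermat.Agent.S56.F.SS.Defs

set_option autoImplicit false

open Fermat.Agent.PT.Local Matrix
open Fermat.Agent.S53 (G M2)
open Fermat.Agent.S56.C (ad rm)

noncomputable section

namespace Fermat.Agent.S56.F.SS

variable {P : Plc} {C : LamCtx P} {F k : Type} [Field F] [Field k] [Algebra F k]
  {r : G →* GL (Fin 2) k} {c c' : G → M2 k}

/-! ### formal properties of `LocCoc`, `CobOn` -/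

theorem ad_one (X : M2 k) : ad (1 : GL (Fin 2) k) X = X := by
  simp [ad]

theorem ad_mul (g h : GL (Fin 2) k) (X : M2 k) : ad (g * h) X = ad g (ad h X) := by
  simp [ad, mul_assoc]

theorem ad_add (g : GL (Fin 2) k) (X Y : M2 k) : ad g (X + Y) = ad g X + ad g Y := by
  simp [ad, mul_add, add_mul]

theorem ad_sub (g : GL (Fin 2) k) (X Y : M2 k) : ad g (X - Y) = ad g X - ad g Y := by
  simp [ad, mul_sub, sub_mul]

theorem ad_smul (g : GL (Fin 2) k) (a : k) (X : M2 k) : ad g (a • X) = a • ad g X := by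
  simp [ad]

theorem ad_zero (g : GL (Fin 2) k) : ad g (0 : M2 k) = 0 := by
  simp [ad]

theorem trace_ad (g : GL (Fin 2) k) (X : M2 k) : (ad g X).trace = X.trace := by
  rw [ad, Matrix.trace_mul_comm, ← mul_assoc]
  simp

theorem LocCoc.map_one (hc : LocCoc P r c) : c 1 = 0 := by
  have h := hc.coc 1 P.dec.one_mem 1 P.dec.one_mem
  rw [mul_one, show r 1 = 1 from _root_.map_one r, ad_one] at h
  exact left_eq_add.mp h

theorem LocCoc.sub (hc : LocCoc P r c) (hc' : LocCoc P r c') : LocCoc P r (c - c') := by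
  obtain ⟨N, hN, hNc⟩ := hc.smooth
  obtain ⟨N', hN', hNc'⟩ := hc'.smooth
  refine ⟨fun g hg h hh => ?_, ⟨N ⊔ N', IntermediateField.finiteDimensional_sup N N',
    fun σ hσ hx => ?_⟩, fun g hg => ?_⟩
  · simp only [Pi.sub_apply]
    rw [hc.coc g hg h hh, hc'.coc g hg h hh, ad_sub]
    abel
  · simp only [Pi.sub_apply]
    rw [hNc σ hσ fun x hxN => hx x ((le_sup_left : N ≤ N ⊔ N') hxN),
      hNc' σ hσ fun x hxN => hx x ((le_sup_right : N' ≤ N ⊔ N') hxN), sub_zero]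
  · simp only [Pi.sub_apply]
    rw [Matrix.trace_sub, hc.tr0 g hg, hc'.tr0 g hg, sub_zero]

theorem LocCoc.add (hc : LocCoc P r c) (hc' : LocCoc P r c') : LocCoc P r (c + c') := by
  obtain ⟨N, hN, hNc⟩ := hc.smooth
  obtain ⟨N', hN', hNc'⟩ := hc'.smooth
  refine ⟨fun g hg h hh => ?_, ⟨N ⊔ N', IntermediateField.finiteDimensional_sup N N',
    fun σ hσ hx => ?_⟩, fun g hg => ?_⟩
  · simp only [Pi.add_apply]
    rw [hc.coc g hg h hh, hc'.coc g hg h hh, ad_add]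
    abel
  · simp only [Pi.add_apply]
    rw [hNc σ hσ fun x hxN => hx x ((le_sup_left : N ≤ N ⊔ N') hxN),
      hNc' σ hσ fun x hxN => hx x ((le_sup_right : N' ≤ N ⊔ N') hxN), add_zero]
  · simp only [Pi.add_apply]
    rw [Matrix.trace_add, hc.tr0 g hg, hc'.tr0 g hg, add_zero]

theorem LocCoc.smul (hc : LocCoc P r c) (a : k) : LocCoc P r (a • c) := by
  obtain ⟨N, hN, hNc⟩ := hc.smooth
  refine ⟨fun g hg h hh => ?_, ⟨N, hN, fun σ hσ hx => ?_⟩, fun g hg => ?_⟩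
  · simp only [Pi.smul_apply]
    rw [hc.coc g hg h hh, ad_smul, smul_add]
  · simp only [Pi.smul_apply]
    rw [hNc σ hσ hx, smul_zero]
  · simp only [Pi.smul_apply]
    rw [Matrix.trace_smul, hc.tr0 g hg, smul_zero]

/-- coboundaries of trace zero... (any `X`) are local cocycles; smoothness from the smoothness of `r`. -/
theorem locCoc_cob (hr : ∃ N : Fld, FiniteDimensional ℚ N ∧ ∀ σ : G, (∀ x ∈ N, σ x = x) → r σ = 1) (X : M2 k) :
    LocCoc P r (fun σ => ad (r σ) X - X) := by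
  obtain ⟨N, hN, hNr⟩ := hr
  refine ⟨fun g _ h _ => ?_, ⟨N, hN, fun σ _ hx => ?_⟩, fun g _ => ?_⟩
  · show ad (r (g * h)) X - X = (ad (r g) X - X) + ad (r g) (ad (r h) X - X)
    rw [_root_.map_mul, ad_mul, ad_sub]
    abel
  · show ad (r σ) X - X = 0
    rw [hNr σ hx, ad_one, sub_self]
  · show (ad (r g) X - X).trace = 0
    rw [Matrix.trace_sub, trace_ad, sub_self]

/-- The zero set of a cocycle is a subgroup of `D`. -/
theorem LocCoc.zero_mul (hc : LocCoc P r c) {g h : G} (hg : g ∈ P.dec) (hh : h ∈ P.dec) (h1 : c g = 0)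
    (h2 : c h = 0) : c (g * h) = 0 := by
  rw [hc.coc g hg h hh, h1, h2, ad_zero, add_zero]

theorem LocCoc.zero_pow (hc : LocCoc P r c) {g : G} (hg : g ∈ P.dec) (h1 : c g = 0) (n : ℕ) : c (g ^ n) = 0 := by
  induction n with
  | zero => simpa using hc.map_one
  | succ n ih => rw [pow_succ]; exact hc.zero_mul (P.dec.pow_mem hg n) hg ih h1

variable (S : SSData C F k r)

/-! ### the restriction to `Gam0` -/

include S in
theorem LocCoc.mul_Gam0 (hc : LocCoc P r c) {s s' : G} (hs : s ∈ C.Gam0) (hs' : s' ∈ C.Gam0) :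
    c (s * s') = c s + c s' := by
  rw [hc.coc s (C.Gam0_le_dec hs) s' (C.Gam0_le_dec hs'), S.r_Gam0 s hs, ad_one]

include S in
/-- `c(d s d⁻¹) = r(d) c(s) r(d)⁻¹` for `d ∈ D`, `s ∈ Gam0`. -/
theorem LocCoc.conj (hc : LocCoc P r c) {d s : G} (hd : d ∈ P.dec) (hs : s ∈ C.Gam0) :
    c (d * s * d⁻¹) = ad (r d) (c s) := by
  have hs' : s ∈ P.dec := C.Gam0_le_dec hs
  have hd' : d⁻¹ ∈ P.dec := P.dec.inv_mem hd
  have h1 := hc.coc d hd d⁻¹ hd'
  rw [mul_inv_cancel, hc.map_one] at h1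
  rw [hc.coc (d * s) (P.dec.mul_mem hd hs') d⁻¹ hd', hc.coc d hd s hs', _root_.map_mul,
    S.r_Gam0 s hs, mul_one]
  have h2 : c d + ad (r d) (c s) + ad (r d) (c d⁻¹)
      = ad (r d) (c s) + (c d + ad (r d) (c d⁻¹)) := by abel
  rw [h2, ← h1, add_zero]

namespace SSData

/-- `α = t0` in `k` -/
def α : k := algebraMap F k S.t0

theorem t0_ne_zero : S.t0 ≠ 0 := by
  intro h
  have h1 := S.hι
  rw [h, map_zero] at h1
  exact (C.g0_prim.ne_zero C.e_pos.ne') h1.symm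

theorem α_ne_zero : S.α ≠ 0 := by
  rw [α, Ne, map_eq_zero]
  exact S.t0_ne_zero

/-- `t0` is a primitive `(p²-1)`-th root of unity of `F` (`ι` injective). -/
theorem t0_prim : IsPrimitiveRoot S.t0 C.e := by
  have h := C.g0_prim
  rw [← S.hι] at h
  exact h.of_map_of_injective S.ι.injective

theorem α_prim : IsPrimitiveRoot S.α C.e :=
  S.t0_prim.map_of_injective (algebraMap F k).injective

/-- every non zero element of `F` is a power of `t0` (`#F^× = p² - 1`). -/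
theorem exists_pow_eq {x : F} (hx : x ≠ 0) : ∃ n : ℕ, x = S.t0 ^ n := by
  have hfin : Finite F := Nat.finite_of_card_ne_zero (by
    rw [S.cardF]
    exact pow_ne_zero _ P.prime.ne_zero)
  let _ := Fintype.ofFinite F
  have h1 : x ^ C.e = 1 := by
    have h := FiniteField.pow_card_sub_one_eq_one x hx
    rwa [← Nat.card_eq_fintype_card, S.cardF] at h
  have : NeZero C.e := ⟨C.e_pos.ne'⟩
  obtain ⟨i, -, hi⟩ := S.t0_prim.eq_pow_of_pow_eq_one h1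
  exact ⟨i, hi.symm⟩

/-- `α^(p-1) ≠ 1`. -/
theorem α_pow_ne_one : S.α ^ (P.ℓ - 1) ≠ 1 := by
  intro h
  have h1 := (S.α_prim.pow_eq_one_iff_dvd _).1 h
  have hp := P.prime.two_le
  have h2 := Nat.le_of_dvd (by omega) h1
  rw [C.e_eq] at h2
  have h3 : (P.ℓ - 1) * 2 ≤ (P.ℓ - 1) * (P.ℓ + 1) := Nat.mul_le_mul_left _ (by omega)
  omega

include S in
/-- `F` has characteristic `p`. -/
theorem charP_F : CharP F P.ℓ :=
  (RingHom.charP_iff S.ι S.ι.injective P.ℓ).2 inferInstance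

include S in
theorem charP_k : CharP k P.ℓ := by
  have := S.charP_F
  exact charP_of_injective_algebraMap (algebraMap F k).injective P.ℓ

include S in
/-- elements of `F` fixed by the Frobenius are in the prime field. -/
theorem exists_val_of_pow_eq {w : F} (hw : w ^ P.ℓ = w) : ∃ T : ZMod P.ℓ, ((T.val : ℕ) : F) = w := by
  have := S.charP_F
  obtain ⟨n, hn⟩ := (mem_bot_iff_intCast P.ℓ F).1 ((Subfield.mem_bot_iff_pow_eq_self F P.ℓ).2 hw)
  refine ⟨(n : ZMod P.ℓ), ?_⟩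
  rw [ZMod.natCast_val, ZMod.cast_intCast', hn]

include S in
theorem pow_sq_eq_self (x : F) : x ^ (P.ℓ * P.ℓ) = x := by
  have hfin : Finite F := Nat.finite_of_card_ne_zero (by
    rw [S.cardF]
    exact pow_ne_zero _ P.prime.ne_zero)
  let _ := Fintype.ofFinite F
  have h := FiniteField.pow_card x
  rwa [← Nat.card_eq_fintype_card, S.cardF, sq] at h

/-- `y = t0^(p-1)` is not fixed by the Frobenius. -/
theorem y_pow_ne : (S.t0 ^ (P.ℓ - 1)) ^ P.ℓ ≠ S.t0 ^ (P.ℓ - 1) := by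
  intro h
  have hp := P.prime.two_le
  have hy0 : S.t0 ^ (P.ℓ - 1) ≠ 0 := pow_ne_zero _ S.t0_ne_zero
  have h1 : (S.t0 ^ (P.ℓ - 1)) ^ (P.ℓ - 1) = 1 := by
    have h2 : (S.t0 ^ (P.ℓ - 1)) ^ (P.ℓ - 1) * S.t0 ^ (P.ℓ - 1) = 1 * S.t0 ^ (P.ℓ - 1) := by
      rw [← pow_succ, Nat.sub_add_cancel (by omega), h, one_mul]
    exact mul_right_cancel₀ hy0 h2
  rw [← pow_mul] at h1
  have h3 := (S.t0_prim.pow_eq_one_iff_dvd _).1 h1
  rw [C.e_eq] at h3
  have h4 : P.ℓ + 1 ∣ P.ℓ - 1 := Nat.dvd_of_mul_dvd_mul_left (by omega) h3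
  have h5 := Nat.le_of_dvd (by omega) h4
  omega

/-- `1` and `y = t0^(p-1)` span `F` over `𝔽_p`: an additive `τ : F → ℤ/p` with `τ z = 0 = τ (y z)` vanishes on `F z`.
(`y ∉ 𝔽_p`: `y^(p-1) ≠ 1` as `(p-1)² < p²-1` is not divisible by `p² - 1`; `#F = p²`.) -/
theorem tau_eq_zero (τ : F →+ ZMod P.ℓ) {z : F} (h1 : τ z = 0) (h2 : τ (S.t0 ^ (P.ℓ - 1) * z) = 0) (x : F) :
    τ (x * z) = 0 := by
  have := S.charP_F
  obtain ⟨y, hy⟩ : ∃ y, y = S.t0 ^ (P.ℓ - 1) := ⟨_, rfl⟩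
  rw [← hy] at h2
  have hyne : y - y ^ P.ℓ ≠ 0 := by
    rw [hy, sub_ne_zero]
    exact (S.y_pow_ne).symm
  obtain ⟨b, hb⟩ : ∃ b, b = (x - x ^ P.ℓ) / (y - y ^ P.ℓ) := ⟨_, rfl⟩
  have hb1 : b * (y - y ^ P.ℓ) = x - x ^ P.ℓ := by rw [hb, div_mul_cancel₀ _ hyne]
  have hbp : b ^ P.ℓ = b := by
    rw [hb, div_pow, sub_pow_char, sub_pow_char, ← pow_mul, ← pow_mul, S.pow_sq_eq_self,
      S.pow_sq_eq_self, ← neg_sub x, ← neg_sub y, neg_div_neg_eq]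
  have hap : (x - b * y) ^ P.ℓ = x - b * y := by
    rw [sub_pow_char, mul_pow, hbp]
    linear_combination hb1
  obtain ⟨A, hA⟩ := S.exists_val_of_pow_eq hap
  obtain ⟨B, hB⟩ := S.exists_val_of_pow_eq hbp
  have hx : x * z = A.val • z + B.val • (y * z) := by
    rw [nsmul_eq_mul, nsmul_eq_mul, hA, hB]
    ring
  rw [hx, map_add, map_nsmul, map_nsmul, h1, h2, smul_zero, smul_zero, add_zero]

/-- **The trace `T = y + y⁻¹ ∈ 𝔽_p`, `y = t0^(p-1)`.**  (`(y + y⁻¹)^p = y^p + y^(-p) = y⁻¹ + y` since `y^(p+1) = 1`; elements of `F` fixed by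
Frobenius are in the prime field: roots of `X^p - X`.) -/
theorem exists_T : ∃ T : ZMod P.ℓ, ((T.val : ℕ) : F) = S.t0 ^ (P.ℓ - 1) + (S.t0 ^ (P.ℓ - 1))⁻¹ := by
  have := S.charP_F
  apply S.exists_val_of_pow_eq
  have hy0 : S.t0 ^ (P.ℓ - 1) ≠ 0 := pow_ne_zero _ S.t0_ne_zero
  have h1 : (S.t0 ^ (P.ℓ - 1)) ^ P.ℓ * S.t0 ^ (P.ℓ - 1) = 1 := by
    rw [← pow_succ, ← pow_mul, ← C.e_eq]
    exact S.t0_prim.pow_eq_one
  have h2 : (S.t0 ^ (P.ℓ - 1)) ^ P.ℓ = (S.t0 ^ (P.ℓ - 1))⁻¹ := eq_inv_of_mul_eq_one_left h1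
  rw [add_pow_char, inv_pow, h2, inv_inv, add_comm]

/-- the trace -/
def T : ZMod P.ℓ := S.exists_T.choose

theorem T_spec : ((S.T.val : ℕ) : F) = S.t0 ^ (P.ℓ - 1) + (S.t0 ^ (P.ℓ - 1))⁻¹ := S.exists_T.choose_spec

theorem T_FF : ((S.T.val : ℕ) : FF P) = C.g0 ^ ((P.ℓ : ℤ) - 1) + (C.g0 ^ ((P.ℓ : ℤ) - 1))⁻¹ := by
  have h := congrArg S.ι S.T_spec
  rw [map_natCast, map_add, map_inv₀, map_pow, S.hι] at h
  have hz : C.g0 ^ ((P.ℓ : ℤ) - 1) = C.g0 ^ (P.ℓ - 1) := by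
    rw [← zpow_natCast, Nat.cast_sub P.prime.one_le, Nat.cast_one]
  rw [hz]
  exact h

omit [Field F] [Algebra F k] in
/-- (aux) a right inverse matrix is the inverse. -/
theorem Basic_coe_inv_eq {g : GL (Fin 2) k} {M : M2 k} (h : (g : M2 k) * M = 1) :
    ((g⁻¹ : GL (Fin 2) k) : M2 k) = M := by
  calc ((g⁻¹ : GL (Fin 2) k) : M2 k) = ((g⁻¹ : GL (Fin 2) k) : M2 k) * ((g : M2 k) * M) := by
        rw [h, mul_one]
    _ = (((g⁻¹ : GL (Fin 2) k) : M2 k) * (g : M2 k)) * M := (mul_assoc _ _ _).symm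
    _ = M := by rw [← Units.val_mul, inv_mul_cancel, Units.val_one, one_mul]

/-- (aux) `r(d0)` as a coerced matrix. -/
theorem Basic_coe_r_d0 : ((r C.d0 : GL (Fin 2) k) : M2 k) = !![S.α, 0; 0, S.α ^ P.ℓ] := S.r_d0

/-- (aux) `r(d0)⁻¹` as a coerced matrix. -/
theorem Basic_coe_r_d0_inv :
    (((r C.d0)⁻¹ : GL (Fin 2) k) : M2 k) = !![S.α⁻¹, 0; 0, (S.α ^ P.ℓ)⁻¹] := by
  apply Basic_coe_inv_eq
  rw [S.Basic_coe_r_d0]
  have h1 := S.α_ne_zero
  have h2 : S.α ^ P.ℓ ≠ 0 := pow_ne_zero _ h1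
  ext i j
  fin_cases i <;> fin_cases j <;> simp [Matrix.mul_apply, Fin.sum_univ_two, h1]

/-- (aux) `α^p = α^(p-1) α`. -/
theorem Basic_α_pow : S.α ^ P.ℓ = S.α ^ (P.ℓ - 1) * S.α := by
  rw [← pow_succ, Nat.sub_add_cancel P.prime.one_le]

/-- `r(d0⁻¹)`. -/
theorem r_d0_inv : rm r C.d0⁻¹ = !![S.α⁻¹, 0; 0, (S.α ^ P.ℓ)⁻¹] := by
  rw [rm, map_inv]
  exact S.Basic_coe_r_d0_inv

/-- `ad (r d0)` on the entries. -/
theorem ad_d0 (X : M2 k) :
    ad (r C.d0) X = !![X 0 0, (S.α ^ (P.ℓ - 1))⁻¹ * X 0 1; S.α ^ (P.ℓ - 1) * X 1 0, X 1 1] := by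
  rw [ad, S.Basic_coe_r_d0, S.Basic_coe_r_d0_inv, S.Basic_α_pow]
  have h1 := S.α_ne_zero
  have h2 : S.α ^ (P.ℓ - 1) ≠ 0 := pow_ne_zero _ h1
  generalize S.α ^ (P.ℓ - 1) = q at h2 ⊢
  obtain ⟨x00, x01, x10, x11, rfl⟩ : ∃ x00 x01 x10 x11 : k, X = !![x00, x01; x10, x11] :=
    ⟨_, _, _, _, Matrix.eta_fin_two X⟩
  ext i j
  fin_cases i <;> fin_cases j <;> simp [Matrix.mul_apply, Fin.sum_univ_two] <;> field_simp

theorem ad_d0_inv (X : M2 k) :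
    ad (r C.d0⁻¹) X = !![X 0 0, S.α ^ (P.ℓ - 1) * X 0 1; (S.α ^ (P.ℓ - 1))⁻¹ * X 1 0, X 1 1] := by
  rw [ad, map_inv, inv_inv, S.Basic_coe_r_d0, S.Basic_coe_r_d0_inv, S.Basic_α_pow]
  have h1 := S.α_ne_zero
  have h2 : S.α ^ (P.ℓ - 1) ≠ 0 := pow_ne_zero _ h1
  generalize S.α ^ (P.ℓ - 1) = q at h2 ⊢
  obtain ⟨x00, x01, x10, x11, rfl⟩ : ∃ x00 x01 x10 x11 : k, X = !![x00, x01; x10, x11] :=
    ⟨_, _, _, _, Matrix.eta_fin_two X⟩
  ext i j
  fin_cases i <;> fin_cases j <;> simp [Matrix.mul_apply, Fin.sum_univ_two] <;> field_simp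

/-- `ad (r φ)` on the entries, `r φ = (0 a; b 0)` (`a b ≠ 0` since `r φ` is invertible). -/
theorem ad_phi {a b : k} (h : rm r C.phi = !![0, a; b, 0]) (X : M2 k) :
    a ≠ 0 ∧ b ≠ 0 ∧ ad (r C.phi) X = !![X 1 1, a / b * X 1 0; b / a * X 0 1, X 0 0] := by
  have hco : ((r C.phi : GL (Fin 2) k) : M2 k) = !![0, a; b, 0] := h
  have hdet : ((Matrix.GeneralLinearGroup.det (r C.phi) : kˣ) : k) = - (a * b) := by
    rw [Matrix.GeneralLinearGroup.val_det_apply, hco, Matrix.det_fin_two]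
    simp
  have hab : a * b ≠ 0 := by
    intro h0
    rw [h0, neg_zero] at hdet
    exact Units.ne_zero _ hdet
  have ha : a ≠ 0 := left_ne_zero_of_mul hab
  have hb : b ≠ 0 := right_ne_zero_of_mul hab
  refine ⟨ha, hb, ?_⟩
  have hinv : (((r C.phi)⁻¹ : GL (Fin 2) k) : M2 k) = !![0, b⁻¹; a⁻¹, 0] := by
    apply Basic_coe_inv_eq
    rw [hco]
    ext i j
    fin_cases i <;> fin_cases j <;> simp [Matrix.mul_apply, Fin.sum_univ_two, ha, hb]
  rw [ad, hco, hinv]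
  obtain ⟨x00, x01, x10, x11, rfl⟩ : ∃ x00 x01 x10 x11 : k, X = !![x00, x01; x10, x11] :=
    ⟨_, _, _, _, Matrix.eta_fin_two X⟩
  ext i j
  fin_cases i <;> fin_cases j <;> simp [Matrix.mul_apply, Fin.sum_univ_two] <;> field_simp

include S in
/-- `r(φ²)` is a scalar. -/
theorem ad_phi_sq (X : M2 k) : ad (r (C.phi ^ 2)) X = X := by
  obtain ⟨a, b, h⟩ := S.r_phi
  obtain ⟨ha, hb, h1⟩ := ad_phi h X
  obtain ⟨-, -, h2⟩ := ad_phi h (ad (r C.phi) X)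
  rw [pow_two, map_mul, ad_mul, h2, h1]
  ext i j
  fin_cases i <;> fin_cases j <;> simp <;> field_simp

end SSData

/-! ### the characters attached to a local cocycle -/

include S in
/-- all the entries give characters -/
theorem LocCoc.Basic_isChar_entry (hc : LocCoc P r c) (l : k →+ ZMod P.ℓ) (i j : Fin 2) :
    C.IsChar (fun s => l (c s i j)) := by
  refine ⟨fun s hs s' hs' => ?_, ?_⟩
  · show l (c (s * s') i j) = l (c s i j) + l (c s' i j)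
    rw [hc.mul_Gam0 S hs hs', Matrix.add_apply, map_add]
  · obtain ⟨N, hN, h⟩ := hc.smooth
    refine ⟨N, hN, fun s hs hx => ?_⟩
    show l (c s i j) = 0
    rw [h s (C.Gam0_le_dec hs) hx, Matrix.zero_apply, map_zero]

include S in
theorem LocCoc.Basic_conj_inv (hc : LocCoc P r c) {s : G} (hs : s ∈ C.Gam0) :
    c (C.d0⁻¹ * s * C.d0) = ad (r C.d0⁻¹) (c s) := by
  have h := hc.conj S (P.dec.inv_mem (ine_le_dec P C.hd0)) hs
  rwa [inv_inv] at h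

include S in
/-- the diagonal characters -/
theorem LocCoc.isChar_diag (hc : LocCoc P r c) (l : k →+ ZMod P.ℓ) : C.IsChar (fun s => l (c s 0 0)) := by
  exact hc.Basic_isChar_entry S l 0 0

include S in
theorem LocCoc.rel_diag (hc : LocCoc P r c) (l : k →+ ZMod P.ℓ) : C.Rel 2 (fun s => l (c s 0 0)) := by
  intro s hs
  show l (c (C.d0 * s * C.d0⁻¹) 0 0) + l (c (C.d0⁻¹ * s * C.d0) 0 0) = 2 * l (c s 0 0)
  rw [hc.conj S (ine_le_dec P C.hd0) hs, hc.Basic_conj_inv S hs, S.ad_d0, S.ad_d0_inv]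
  simp only [Matrix.of_apply, Matrix.cons_val_zero, Matrix.cons_val', Matrix.cons_val_fin_one]
  ring

include S in
/-- the lower left characters -/
theorem LocCoc.isChar_low (hc : LocCoc P r c) (l : k →+ ZMod P.ℓ) : C.IsChar (fun s => l (c s 1 0)) := by
  exact hc.Basic_isChar_entry S l 1 0

/-- `ψ = τ ∘ l' ∘ c-` satisfies the relation with `T = y + y⁻¹`, `y = t0^(p-1)`
(`LocCoc.conj`, `ad_d0`, `ad_d0_inv`, `l'` is `F`-linear, `τ (n • z) = n • τ z`). -/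
theorem LocCoc.rel_low (hc : LocCoc P r c) (τ : F →+ ZMod P.ℓ) (l' : k →ₗ[F] F) :
    C.Rel S.T (fun s => τ (l' (c s 1 0))) := by
  intro s hs
  show τ (l' (c (C.d0 * s * C.d0⁻¹) 1 0)) + τ (l' (c (C.d0⁻¹ * s * C.d0) 1 0)) =
    S.T * τ (l' (c s 1 0))
  rw [hc.conj S (ine_le_dec P C.hd0) hs, hc.Basic_conj_inv S hs, S.ad_d0, S.ad_d0_inv]
  have e1 : (!![c s 0 0, (S.α ^ (P.ℓ - 1))⁻¹ * c s 0 1; S.α ^ (P.ℓ - 1) * c s 1 0, c s 1 1] :
      M2 k) 1 0 = S.t0 ^ (P.ℓ - 1) • c s 1 0 := by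
    rw [Algebra.smul_def, map_pow]
    rfl
  have e2 : (!![c s 0 0, S.α ^ (P.ℓ - 1) * c s 0 1; (S.α ^ (P.ℓ - 1))⁻¹ * c s 1 0, c s 1 1] :
      M2 k) 1 0 = (S.t0 ^ (P.ℓ - 1))⁻¹ • c s 1 0 := by
    rw [Algebra.smul_def, map_inv₀, map_pow]
    rfl
  rw [e1, e2, l'.map_smul, l'.map_smul, smul_eq_mul, smul_eq_mul, ← map_add, ← add_mul, ← S.T_spec,
    ← nsmul_eq_mul, map_nsmul, nsmul_eq_mul, ZMod.natCast_zmod_val]

end Fermat.Agent.S56.F.SS

end
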