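/-
S56 block (F), F-D, D0: a local cocycle which vanishes on `Gam0` is a coboundary on `D`.
-/
import Fermat.Agent.S56.F.SS.Basic

set_option autoImplicit false

open Fermat.Agent.PT.Local Matrix
open Fermat.Agent.S53 (G M2)
open Fermat.Agent.S56.C (ad rm)

noncomputable section

namespace Fermat.Agent.S56.F.SS

variable {P : Plc} {C : LamCtx P} {F k : Type} [Field F] [Field k] [Algebra F k]
  {r : G →* GL (Fin 2) k} {c : G → M2 k} (S : SSData C F k r)

include S in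
/-- `c(d0^n) 0 0 = n c(d0) 0 0` (induction, `ad_d0`). -/
theorem LocCoc.pow_d0_diag (hc : LocCoc P r c) (n : ℕ) : c (C.d0 ^ n) 0 0 = n * c C.d0 0 0 := by
  have hd : C.d0 ∈ P.dec := ine_le_dec P C.hd0
  induction n with
  | zero => rw [pow_zero, hc.map_one]; simp
  | succ n ih =>
    rw [pow_succ', hc.coc _ hd _ (P.dec.pow_mem hd n), Matrix.add_apply, S.ad_d0]
    simp only [Matrix.of_apply, Matrix.cons_val', Matrix.cons_val_zero, Matrix.cons_val_fin_one]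
    rw [ih]
    push_cast
    ring

include S in
/-- Step 1: the diagonal of `c(d0)` vanishes (`d0^e ∈ Gam0`, `e = p² - 1 = -1` in `k`; trace zero). -/
theorem LocCoc.d0_diag (hc : LocCoc P r c) (h0 : ∀ s ∈ C.Gam0, c s = 0) : c C.d0 0 0 = 0 ∧ c C.d0 1 1 = 0 := by
  have hchar := S.charP_k
  have h1 := hc.pow_d0_diag S C.e
  rw [h0 _ C.d0_pow_e_mem, Matrix.zero_apply] at h1
  have he : (C.e : k) = -1 := by
    have h2 : C.e + 1 = P.ℓ ^ 2 := by
      have := C.e_pos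
      unfold LamCtx.e at *
      omega
    have h3 : ((C.e + 1 : ℕ) : k) = 0 := by
      rw [h2, Nat.cast_pow, CharP.cast_eq_zero k P.ℓ, _root_.zero_pow (by norm_num)]
    rw [Nat.cast_add, Nat.cast_one] at h3
    exact eq_neg_of_add_eq_zero_left h3
  rw [he] at h1
  have h00 : c C.d0 0 0 = 0 := by linear_combination h1
  have htr := hc.tr0 _ (ine_le_dec P C.hd0)
  rw [Matrix.trace_fin_two, h00, zero_add] at htr
  exact ⟨h00, htr⟩

include S in
/-- Step 1': there is `X` with `c(d0) = ad(r d0) X - X`:  `X = (0, c01/(y⁻¹ - 1); c10/(y - 1), 0)`, `y = α^(p-1) ≠ 1`. -/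
theorem LocCoc.exists_cob_d0 (hc : LocCoc P r c) (h0 : ∀ s ∈ C.Gam0, c s = 0) :
    ∃ X : M2 k, c C.d0 = ad (r C.d0) X - X := by
  obtain ⟨h00, h11⟩ := hc.d0_diag S h0
  have hy := S.α_pow_ne_one
  have hy0 : S.α ^ (P.ℓ - 1) ≠ 0 := pow_ne_zero _ S.α_ne_zero
  have hy1 : S.α ^ (P.ℓ - 1) - 1 ≠ 0 := sub_ne_zero.2 hy
  have hy2 : (S.α ^ (P.ℓ - 1))⁻¹ - 1 ≠ 0 := by
    rw [sub_ne_zero, Ne, inv_eq_one]
    exact hy
  refine ⟨!![0, c C.d0 0 1 / ((S.α ^ (P.ℓ - 1))⁻¹ - 1); c C.d0 1 0 / (S.α ^ (P.ℓ - 1) - 1), 0], ?_⟩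
  rw [S.ad_d0]
  generalize S.α ^ (P.ℓ - 1) = y at *
  ext i j
  fin_cases i <;> fin_cases j
  · simpa using h00
  · simp only [Fin.zero_eta, Fin.mk_one, Matrix.sub_apply, Matrix.of_apply, Matrix.cons_val',
      Matrix.cons_val_zero, Matrix.cons_val_one, Matrix.cons_val_fin_one]
    rw [← sub_one_mul, mul_div_cancel₀ _ hy2]
  · simp only [Fin.zero_eta, Fin.mk_one, Matrix.sub_apply, Matrix.of_apply, Matrix.cons_val',
      Matrix.cons_val_zero, Matrix.cons_val_one, Matrix.cons_val_fin_one]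
    rw [← sub_one_mul, mul_div_cancel₀ _ hy1]
  · simpa using h11

include S in
/-- Step 2: a cocycle vanishing on `Gam0` and at `d0` vanishes on `I` (`exists_pow_mul`, `zero_pow`, `zero_mul`). -/
theorem LocCoc.zero_on_ine (hc : LocCoc P r c) (h0 : ∀ s ∈ C.Gam0, c s = 0) (h1 : c C.d0 = 0) :
    ∀ s ∈ P.ine, c s = 0 := by
  intro s hs
  obtain ⟨n, s0, hs0, rfl⟩ := C.exists_pow_mul hs
  exact hc.zero_mul (P.dec.pow_mem (ine_le_dec P C.hd0) n) (C.Gam0_le_dec hs0)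
    (hc.zero_pow (ine_le_dec P C.hd0) h1 n) (h0 s0 hs0)

include S in
/-- Step 3: if `c = 0` on `I` then `c(d)` is diagonal for `d ∈ D`:
`c(d0 d) = ad(r d0) c(d)` and `d0 d = d (d⁻¹ d0 d)`, `d⁻¹ d0 d ∈ I` (`ine_normal`), so `c(d0 d) = c(d)`; then `ad_d0`, `α_pow_ne_one`. -/
theorem LocCoc.diag_of_zero_on_ine (hc : LocCoc P r c) (h0 : ∀ s ∈ P.ine, c s = 0) {d : G} (hd : d ∈ P.dec) :
    c d 0 1 = 0 ∧ c d 1 0 = 0 := by
  have hd0 : C.d0 ∈ P.dec := ine_le_dec P C.hd0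
  have ht : d⁻¹ * C.d0 * d ∈ P.ine := by
    have := ine_normal P (P.dec.inv_mem hd) C.hd0
    rwa [inv_inv] at this
  have h1 : c (C.d0 * d) = ad (r C.d0) (c d) := by
    rw [hc.coc _ hd0 _ hd, h0 _ C.hd0, zero_add]
  have h2 : c (C.d0 * d) = c d := by
    have e : C.d0 * d = d * (d⁻¹ * C.d0 * d) := by group
    rw [e, hc.coc _ hd _ (ine_le_dec P ht), h0 _ ht, ad_zero, add_zero]
  have h3 : ad (r C.d0) (c d) = c d := h1.symm.trans h2
  rw [S.ad_d0] at h3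
  have hy := S.α_pow_ne_one
  have hy1 : S.α ^ (P.ℓ - 1) - 1 ≠ 0 := sub_ne_zero.2 hy
  have hy2 : (S.α ^ (P.ℓ - 1))⁻¹ - 1 ≠ 0 := by
    rw [sub_ne_zero, Ne, inv_eq_one]
    exact hy
  have e01 := congrFun (congrFun h3 0) 1
  have e10 := congrFun (congrFun h3 1) 0
  simp only [Matrix.of_apply, Matrix.cons_val', Matrix.cons_val_zero, Matrix.cons_val_one,
    Matrix.cons_val_fin_one] at e01 e10
  constructor
  · have : ((S.α ^ (P.ℓ - 1))⁻¹ - 1) * c d 0 1 = 0 := by rw [sub_one_mul, e01, sub_self]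
    exact (mul_eq_zero.1 this).resolve_left hy2
  · have : (S.α ^ (P.ℓ - 1) - 1) * c d 1 0 = 0 := by rw [sub_one_mul, e10, sub_self]
    exact (mul_eq_zero.1 this).resolve_left hy1

include S in
/-- Step 4: if `c = 0` on `I` then `c(φ) = ad(r φ) X - X` for a diagonal matrix `X = -(f/2) diag(1,-1)` (which commutes with `r(I)`:
`ad (r s) X = X` for `s ∈ I`).  (`p ≠ 2`.) -/
theorem LocCoc.exists_cob_phi (hc : LocCoc P r c) (h0 : ∀ s ∈ P.ine, c s = 0) :
    ∃ X : M2 k, c C.phi = ad (r C.phi) X - X ∧ ∀ s ∈ P.ine, ad (r s) X = X := by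
  have hchar := S.charP_k
  have h2 : (2 : k) ≠ 0 := by
    intro h
    have h' : ((2 : ℕ) : k) = 0 := by exact_mod_cast h
    rw [CharP.cast_eq_zero_iff k P.ℓ 2] at h'
    exact C.hodd ((Nat.prime_dvd_prime_iff_eq P.prime Nat.prime_two).1 h')
  have hφ : C.phi ∈ P.dec := C.hphi.1
  obtain ⟨h01, h10⟩ := hc.diag_of_zero_on_ine S h0 hφ
  have htr := hc.tr0 _ hφ
  rw [Matrix.trace_fin_two] at htr
  obtain ⟨a, b, hab⟩ := S.r_phi
  refine ⟨!![-(c C.phi 0 0 / 2), 0; 0, c C.phi 0 0 / 2], ?_, ?_⟩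
  · rw [(SSData.ad_phi hab _).2.2]
    ext i j
    fin_cases i <;> fin_cases j
    · simp only [Fin.zero_eta, Fin.mk_one, Matrix.sub_apply, Matrix.of_apply, Matrix.cons_val',
        Matrix.cons_val_zero, Matrix.cons_val_one, Matrix.cons_val_fin_one]
      field_simp
      ring
    · simpa using h01
    · simpa using h10
    · simp only [Fin.zero_eta, Fin.mk_one, Matrix.sub_apply, Matrix.of_apply, Matrix.cons_val',
        Matrix.cons_val_zero, Matrix.cons_val_one, Matrix.cons_val_fin_one]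
      have : c C.phi 1 1 = - c C.phi 0 0 := by linear_combination htr
      rw [this]
      field_simp
      ring
  · intro s hs
    obtain ⟨n, s0, hs0, rfl⟩ := C.exists_pow_mul hs
    rw [map_mul, S.r_Gam0 s0 hs0, mul_one, map_pow]
    clear hs
    induction n with
    | zero => rw [pow_zero, ad_one]
    | succ n ih =>
      rw [pow_succ', ad_mul, ih, S.ad_d0]
      ext i j
      fin_cases i <;> fin_cases j <;> simp

include S in
/-- Step 5: a cocycle vanishing on `I` and at `φ` vanishes on `D` (`frob_gen_ell` with the level `N` of `c`). -/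
theorem LocCoc.zero_on_dec (hc : LocCoc P r c) (h0 : ∀ s ∈ P.ine, c s = 0) (h1 : c C.phi = 0) :
    ∀ d ∈ P.dec, c d = 0 := by
  obtain ⟨N, hN, hcN⟩ := hc.smooth
  intro d hd
  obtain ⟨j, τ, hτ, u, hu, huN, rfl⟩ := frob_gen_ell P C.hphi N hd
  have hφ : C.phi ∈ P.dec := C.hphi.1
  exact hc.zero_mul (P.dec.mul_mem (P.dec.pow_mem hφ j) (ine_le_dec P hτ)) hu
    (hc.zero_mul (P.dec.pow_mem hφ j) (ine_le_dec P hτ) (hc.zero_pow hφ h1 j) (h0 τ hτ)) (hcN u hu huN)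

include S in
/-- **D0.** -/
theorem LocCoc.cobOn_of_res_zero (hc : LocCoc P r c) (h0 : ∀ s ∈ C.Gam0, c s = 0) : CobOn P r c := by
  obtain ⟨X1, hX1⟩ := hc.exists_cob_d0 S h0
  have hc1 : LocCoc P r (c - fun σ => ad (r σ) X1 - X1) := hc.sub (locCoc_cob S.smooth X1)
  have h1 : ∀ s ∈ P.ine, (c - fun σ => ad (r σ) X1 - X1) s = 0 := by
    refine hc1.zero_on_ine S (fun s hs => ?_) ?_
    · simp [h0 s hs, S.r_Gam0 s hs, ad_one]
    · simp [hX1]
  obtain ⟨X2, hX2, hX2I⟩ := hc1.exists_cob_phi S h1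
  have hc2 : LocCoc P r ((c - fun σ => ad (r σ) X1 - X1) - fun σ => ad (r σ) X2 - X2) :=
    hc1.sub (locCoc_cob S.smooth X2)
  have h2 := hc2.zero_on_dec S (fun s hs => by
    have := h1 s hs
    simp only [Pi.sub_apply] at this ⊢
    rw [this, hX2I s hs]; simp) (by
    simp only [Pi.sub_apply] at hX2 ⊢
    rw [hX2]; simp)
  refine ⟨X1 + X2, fun σ hσ => ?_⟩
  have h3 := h2 σ hσ
  simp only [Pi.sub_apply] at h3
  rw [ad_add]
  have h4 : c σ = (ad (r σ) X1 - X1) + (ad (r σ) X2 - X2) := by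
    rw [sub_eq_zero] at h3
    rw [← h3]; abel
  rw [h4]; abel

end Fermat.Agent.S56.F.SS

end
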