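/-
S56 block (F), F-D, D4: the local condition `LL` is a `k`-subspace containing the coboundaries and has at most `#k` classes.
-/
import Fermat.Agent.S56.F.SS.Coh

set_option autoImplicit false

open Fermat.Agent.PT.Local Matrix
open Fermat.Agent.S53 (G M2)
open Fermat.Agent.S56.C (ad rm)

noncomputable section

namespace Fermat.Agent.S56.F.SS

variable {P : Plc} {C : LamCtx P} {F k : Type} [Field F] [Field k] [Algebra F k]
  {r : G →* GL (Fin 2) k} {c c' : G → M2 k} (S : SSData C F k r) {τ : F →+ ZMod P.ℓ}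

/-! ### `LL` is a subspace -/

theorem LL.sub (h : LL C τ r c) (h' : LL C τ r c') : LL C τ r (c - c') := by
  refine ⟨h.1.sub h'.1, fun s hs => ?_, fun l' => ?_⟩
  · simp [h.2.1 s hs, h'.2.1 s hs]
  · refine ((h.2.2 l').sub (by omega) (h'.2.2 l')).congr fun s _ => ?_
    simp

theorem LL.add (h : LL C τ r c) (h' : LL C τ r c') : LL C τ r (c + c') := by
  refine ⟨h.1.add h'.1, fun s hs => ?_, fun l' => ?_⟩
  · simp [h.2.1 s hs, h'.2.1 s hs]
  · refine ((h.2.2 l').add (by omega) (h'.2.2 l')).congr fun s _ => ?_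
    simp

/-- (`l' ∘ (a ·)` is again `F`-linear.) -/
theorem LL.smul (h : LL C τ r c) (a : k) : LL C τ r (a • c) := by
  refine ⟨h.1.smul a, fun s hs => ?_, fun l' => ?_⟩
  · simp [h.2.1 s hs]
  · refine (h.2.2 (l' ∘ₗ (LinearMap.mulLeft F a))).congr fun s _ => ?_
    simp

include S in
/-- coboundaries vanish on `Gam0`. -/
theorem LL_cob (X : M2 k) : LL C τ r (fun σ => ad (r σ) X - X) := by
  refine ⟨locCoc_cob S.smooth X, fun s hs => ?_, fun l' => ?_⟩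
  · simp [S.r_Gam0 s hs, ad_one]
  · refine (LamCtx.levGE_zero_fun _).congr fun s hs => ?_
    simp [S.r_Gam0 s hs, ad_one]

/-! ### injectivity -/

include S in
/-- `c+` is determined by `c-`: `c(φ s φ⁻¹) = ad(r φ) c(s)` gives `c+(φ s φ⁻¹) = (a/b) c-(s)`; every element of `Gam0` is `φ s φ⁻¹`
(`conj_mem_Gam0'`). -/
theorem LocCoc.up_zero_of_low_zero (hc : LocCoc P r c) (h : ∀ s ∈ C.Gam0, c s 1 0 = 0) :
    ∀ s ∈ C.Gam0, c s 0 1 = 0 := by
  intro s hs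
  obtain ⟨a, b, hab⟩ := S.r_phi
  have hφ : C.phi ∈ P.dec := C.hphi.1
  have hs' : C.phi⁻¹ * s * C.phi ∈ C.Gam0 := C.conj_mem_Gam0' hφ hs
  have h1 := hc.conj S hφ hs'
  have h2 : C.phi * (C.phi⁻¹ * s * C.phi) * C.phi⁻¹ = s := by group
  rw [h2, (SSData.ad_phi hab _).2.2] at h1
  rw [h1]
  simp [h _ hs']

include S in
theorem LL.cobOn_of_low_zero (hc : LL C τ r c) (h : ∀ s ∈ C.Gam0, c s 1 0 = 0) : CobOn P r c := by
  refine hc.1.cobOn_of_res_zero S fun s hs => ?_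
  have h00 := hc.2.1 s hs
  have h01 := hc.1.up_zero_of_low_zero S h s hs
  have htr := hc.1.tr0 s (C.Gam0_le_dec hs)
  rw [Matrix.trace_fin_two, h00, zero_add] at htr
  ext i j
  fin_cases i <;> fin_cases j <;> simp [h00, h01, h s hs, htr]

include S in
/-- if `τ ∘ l' ∘ c-` vanishes on `Gam0` then so does `l' ∘ c-`  (`τ ≠ 0`).
[`τ(l'(c-(d0 s d0⁻¹))) = τ(y l'(c-(s)))`, `y = t0^(p-1)`; `SSData.tau_eq_zero`: `τ (x l'(c- s)) = 0` for all `x ∈ F`.] -/
theorem LocCoc.low_zero_of_tau (hc : LocCoc P r c) (hτ : τ ≠ 0) (l' : k →ₗ[F] F)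
    (h : ∀ s ∈ C.Gam0, τ (l' (c s 1 0)) = 0) : ∀ s ∈ C.Gam0, l' (c s 1 0) = 0 := by
  intro s hs
  by_contra hz
  apply hτ
  have hd0 : C.d0 ∈ P.dec := ine_le_dec P C.hd0
  have h1 : τ (l' (c s 1 0)) = 0 := h s hs
  have h2 : τ (S.t0 ^ (P.ℓ - 1) * l' (c s 1 0)) = 0 := by
    have h3 := h _ (C.conj_mem_Gam0 hd0 hs)
    rw [hc.conj S hd0 hs, S.ad_d0] at h3
    have h4 : (!![c s 0 0, (S.α ^ (P.ℓ - 1))⁻¹ * c s 0 1; S.α ^ (P.ℓ - 1) * c s 1 0, c s 1 1] :
        M2 k) 1 0 = S.t0 ^ (P.ℓ - 1) • c s 1 0 := by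
      simp [SSData.α, Algebra.smul_def]
    rw [h4, map_smul, smul_eq_mul] at h3
    exact h3
  ext w
  have h5 := S.tau_eq_zero τ h1 h2 (w / l' (c s 1 0))
  rw [div_mul_cancel₀ _ hz] at h5
  simpa using h5

/-! ### the invariant -/

/-- `Λ(c)_i = lc_{p²+1}(τ ∘ b_i^* ∘ c-)`. -/
def Lam (C : LamCtx P) (τ : F →+ ZMod P.ℓ) {m : ℕ} (b : Module.Basis (Fin m) F k) (c : G → M2 k) (i : Fin m) : FF P :=
  C.lcOf (fun s => τ (b.coord i (c s 1 0))) (P.ℓ ^ 2 + 1)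

/-- `p ∤ p² + 1`, `1 ≤ p²+1 < p² + p`. -/
theorem level_facts (C : LamCtx P) : 1 ≤ P.ℓ ^ 2 + 1 ∧ P.ℓ ^ 2 + 1 < P.ℓ ^ 2 + P.ℓ ∧ ¬ P.ℓ ∣ P.ℓ ^ 2 + 1 := by
  refine ⟨by omega, by have := C.three_le; omega, fun h => ?_⟩
  have h1 : P.ℓ ∣ P.ℓ ^ 2 := dvd_pow_self _ (by norm_num)
  have h2 := (Nat.dvd_add_right h1).1 h
  exact P.prime.one_lt.ne' (Nat.dvd_one.1 h2)

include S in
/-- **`φ²`-semilinearity.**  `c-(φ² s φ⁻²) = c-(s)` (`LocCoc.conj`, `ad_phi_sq`), `IsFrob P (p^2) (φ^2)` (`IsFrob.pow`),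
`LevGE.frob_conj` with `f = 2`. -/
theorem LL.Lam_mem (hc : LL C τ r c) {n : ℕ} (hn : (C.phi ^ 2) C.zeta = C.zeta ^ n) {m : ℕ}
    (b : Module.Basis (Fin m) F k) (i : Fin m) :
    C.theta (C.phi ^ 2) ^ (P.ℓ ^ 2 + 1) * Lam C τ b c i ^ (P.ℓ ^ 2) = n * Lam C τ b c i := by
  obtain ⟨hj, hj', hpj⟩ := level_facts C
  have hfrob : IsFrob P (P.ℓ ^ 2) (C.phi ^ 2) := C.hphi.pow 2
  have key := (LamCtx.LevGE.frob_conj hj hj' hpj (hc.2.2 (b.coord i)) hfrob hn).2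
  have hcongr : C.lcOf (fun s => τ (b.coord i (c (C.phi ^ 2 * s * (C.phi ^ 2)⁻¹) 1 0)))
      (P.ℓ ^ 2 + 1) = C.lcOf (fun s => τ (b.coord i (c s 1 0))) (P.ℓ ^ 2 + 1) :=
    LamCtx.lcOf_congr hj hj' hpj fun s hs => by
      rw [hc.1.conj S hfrob.1 hs, S.ad_phi_sq]
  rw [hcongr] at key
  exact key

include S in
/-- **Injectivity of `Λ` modulo coboundaries.**  `δ = c - c' ∈ LL`, `lcOf_sub`: `lc(τ b_i^* δ-) = 0`, so level `≥ p² + 2` (`LevGE.succ_of_lcOf`),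
so `τ b_i^* δ- = 0` on `Gam0` (`Rel.eq_zero_of_levGE`, `LocCoc.rel_low`, `SSData.T_FF`), so `b_i^* δ- = 0` (`low_zero_of_tau`) for all `i`, so `δ- = 0`
(`Basis.ext_elem`-like), and `LL.cobOn_of_low_zero`. -/
theorem LL.cobOn_of_Lam_eq (hτ : τ ≠ 0) (hc : LL C τ r c) (hc' : LL C τ r c') {m : ℕ} (b : Module.Basis (Fin m) F k)
    (h : Lam C τ b c = Lam C τ b c') : CobOn P r (c - c') := by
  obtain ⟨h1, h2, h3⟩ := level_facts C
  have hδ : LL C τ r (c - c') := hc.sub hc'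
  refine hδ.cobOn_of_low_zero S fun s hs => ?_
  have hcoord : ∀ i, b.coord i ((c - c') s 1 0) = 0 := by
    intro i
    refine hδ.1.low_zero_of_tau S hτ (b.coord i) ?_ s hs
    have hlev := hδ.2.2 (b.coord i)
    have hlc : C.lcOf (fun s => τ (b.coord i ((c - c') s 1 0))) (P.ℓ ^ 2 + 1) = 0 := by
      have e := LamCtx.lcOf_sub h1 h2 h3 (hc.2.2 (b.coord i)) (hc'.2.2 (b.coord i))
      have e2 : (fun s => τ (b.coord i ((c - c') s 1 0))) =
          fun s => τ (b.coord i (c s 1 0)) - τ (b.coord i (c' s 1 0)) := by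
        funext s
        simp
      rw [e2, e]
      exact sub_eq_zero.2 (congrFun h i)
    exact (hδ.1.rel_low S τ (b.coord i)).eq_zero_of_levGE S.T_FF (hlev.succ_of_lcOf h1 h2 h3 hlc)
  have hrepr : b.repr ((c - c') s 1 0) = 0 := by
    ext i
    simpa using hcoord i
  exact (LinearEquiv.map_eq_zero_iff b.repr).1 hrepr

/-! ### counting -/

/-- the solutions of `A x^q = B x` (`A ≠ 0`, `q ≥ 2`): at most `q`. -/
theorem card_semilin_le {K : Type} [Field K] {A B : K} (hA : A ≠ 0) {q : ℕ} (hq : 2 ≤ q) :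
    Finite {x : K // A * x ^ q = B * x} ∧ Nat.card {x : K // A * x ^ q = B * x} ≤ q := by
  classical
  set f : Polynomial K := Polynomial.C A * Polynomial.X ^ q - Polynomial.C B * Polynomial.X with hf
  have hdeg : f.natDegree = q := by
    rw [hf, Polynomial.natDegree_sub_eq_left_of_natDegree_lt]
    · exact Polynomial.natDegree_C_mul_X_pow q A hA
    · rw [Polynomial.natDegree_C_mul_X_pow q A hA]
      have h1 : (Polynomial.C B * Polynomial.X : Polynomial K).natDegree ≤ 1 :=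
        (Polynomial.natDegree_C_mul_le B Polynomial.X).trans Polynomial.natDegree_X_le
      omega
  have hf0 : f ≠ 0 := by
    intro h
    rw [h, Polynomial.natDegree_zero] at hdeg
    omega
  have hsub : {x : K | A * x ^ q = B * x} ⊆ (f.roots.toFinset : Set K) := by
    intro x hx
    have hx' : A * x ^ q = B * x := hx
    rw [Finset.mem_coe, Multiset.mem_toFinset, Polynomial.mem_roots hf0, Polynomial.IsRoot.def, hf]
    simp [hx']
  have hfin : Set.Finite {x : K | A * x ^ q = B * x} := (Finset.finite_toSet _).subset hsub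
  refine ⟨hfin.to_subtype, ?_⟩
  calc Nat.card {x : K // A * x ^ q = B * x} = Set.ncard {x : K | A * x ^ q = B * x} := rfl
    _ ≤ (f.roots.toFinset : Set K).ncard := Set.ncard_le_ncard hsub (Finset.finite_toSet _)
    _ = f.roots.toFinset.card := Set.ncard_coe_finset _
    _ ≤ f.roots.card := Multiset.toFinset_card_le _
    _ ≤ f.natDegree := Polynomial.card_roots' f
    _ = q := hdeg

/-- abstract covering lemma. -/
theorem exists_finset_cover {α β : Type} [Finite β] (Sp : α → Prop) (Λ : {a : α // Sp a} → β) (R : α → α → Prop)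
    (h : ∀ a a' : {a : α // Sp a}, Λ a = Λ a' → R a a') :
    ∃ T : Finset α, T.card ≤ Nat.card β ∧ ∀ a, Sp a → ∃ t ∈ T, R a t := by
  classical
  have : Fintype (Set.range Λ) := Fintype.ofFinite _
  refine ⟨Finset.univ.image (fun b : Set.range Λ => ((b.2.choose : {a : α // Sp a}) : α)), ?_,
    fun a ha => ?_⟩
  · refine Finset.card_image_le.trans ?_
    rw [Finset.card_univ, ← Nat.card_eq_fintype_card]
    exact Nat.card_le_card_of_injective _ Subtype.val_injective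
  · refine ⟨_, Finset.mem_image_of_mem _ (Finset.mem_univ ⟨Λ ⟨a, ha⟩, ⟨a, ha⟩, rfl⟩), ?_⟩
    exact h ⟨a, ha⟩ _ (Exists.choose_spec (⟨⟨a, ha⟩, rfl⟩ : ∃ y, Λ y = Λ ⟨a, ha⟩)).symm

include S in
/-- **D4.**  (`b = Module.finBasis F k`, `#k = (p²)^m`; `β = Fin m → {x // A x^(p²) = B x}`, `A = θ(φ²)^(p²+1) ≠ 0` (`v_xi`, `res_ne_zero`).) -/
theorem LL_count [Finite k] (hτ : τ ≠ 0) :
    ∃ T : Finset (G → M2 k), T.card ≤ Nat.card k ∧ ∀ c, LL C τ r c → ∃ t ∈ T, CobOn P r (c - t) := by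
  classical
  have hp := P.prime
  have : NeZero P.ℓ := ⟨hp.ne_zero⟩
  have : Module.Finite F k := Module.Finite.of_finite
  set m := Module.finrank F k with hm
  let b : Module.Basis (Fin m) F k := Module.finBasis F k
  have hroot : ((C.phi ^ 2) C.zeta) ^ P.ℓ = 1 := by
    rw [← map_pow, C.hzeta.pow_eq_one, map_one]
  obtain ⟨n, -, hn⟩ := C.hzeta.eq_pow_of_pow_eq_one hroot
  have hA : C.theta (C.phi ^ 2) ^ (P.ℓ ^ 2 + 1) ≠ 0 := pow_ne_zero _ (res_ne_zero P (C.v_xi _))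
  have hq : 2 ≤ P.ℓ ^ 2 := by nlinarith [hp.two_le]
  obtain ⟨hfin, hcard⟩ := card_semilin_le (B := ((n : ℕ) : FF P)) hA hq
  obtain ⟨T, hT, hcov⟩ := exists_finset_cover
    (β := Fin m → {x : FF P // C.theta (C.phi ^ 2) ^ (P.ℓ ^ 2 + 1) * x ^ (P.ℓ ^ 2) = (n : FF P) * x})
    (fun c => LL C τ r c)
    (fun c i => ⟨Lam C τ b c.1 i, c.2.Lam_mem S hn.symm b i⟩)
    (fun c t => CobOn P r (c - t))
    (fun a a' h => a.2.cobOn_of_Lam_eq S hτ a'.2 b
      (funext fun i => congrArg Subtype.val (congrFun h i)))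
  refine ⟨T, hT.trans ?_, hcov⟩
  rw [Nat.card_fun, Nat.card_eq_fintype_card (α := Fin m), Fintype.card_fin,
    Module.natCard_eq_pow_finrank (K := F) (V := k), S.cardF]
  exact Nat.pow_le_pow_left hcard _

end Fermat.Agent.S56.F.SS

end
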