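/-
S56 block (F), F-D, first half of D3: the diagonal part `c0 : Gam0 → k` of a local cocycle takes its values in an `𝔽_p`-line, more precisely
its kernel is the stabiliser of ONE Kummer root `β` of exact level `p + 1`.
-/
import Fermat.Agent.S56.F.SS.Count

set_option autoImplicit false

open Fermat.Agent.PT.Local Matrix
open Fermat.Agent.S53 (G M2)
open Fermat.Agent.S56.C (ad rm)

noncomputable section

namespace Fermat.Agent.S56.F.SS

variable {P : Plc} {C : LamCtx P} {F k : Type} [Field F] [Field k] [Algebra F k]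
  {r : G →* GL (Fin 2) k} {c : G → M2 k} (S : SSData C F k r)

/-- additive functionals `k → ℤ/p` separate the points of a field of characteristic `p`. -/
theorem exists_functional {p : ℕ} [Fact p.Prime] {k : Type} [Field k] [CharP k p] {x : k} (hx : x ≠ 0) :
    ∃ l : k →+ ZMod p, l x ≠ 0 := by
  let _ := ZMod.algebra k p
  by_contra h
  push Not at h
  exact hx ((Module.forall_dual_apply_eq_zero_iff (ZMod p) x).mp fun φ => h φ.toAddMonoidHom)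

/-- `1 ≤ p+1 < p²+p`, `p ∤ p+1`. -/
theorem level_facts' (C : LamCtx P) : 1 ≤ P.ℓ + 1 ∧ P.ℓ + 1 < P.ℓ ^ 2 + P.ℓ ∧ ¬ P.ℓ ∣ P.ℓ + 1 := by
  refine ⟨by omega, by have := C.three_le; nlinarith, fun h => ?_⟩
  have h2 := (Nat.dvd_add_right (dvd_refl P.ℓ)).1 h
  exact P.prime.one_lt.ne' (Nat.dvd_one.1 h2)

/-- `L(l) = lc_{p+1}(l ∘ c0)`. -/
def Ldiag (C : LamCtx P) (c : G → M2 k) (l : k →+ ZMod P.ℓ) : FF P :=
  C.lcOf (fun s => l (c s 0 0)) (P.ℓ + 1)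

include S in
/-- `L(l) = 0 → l ∘ c0 = 0` on `Gam0`  (`LevGE.succ_of_lcOf`, `Rel.levGE_diag`, `Rel.eq_zero_diag`). -/
theorem LocCoc.diag_zero_of_Ldiag (hc : LocCoc P r c) (l : k →+ ZMod P.ℓ) (h : Ldiag C c l = 0) :
    ∀ s ∈ C.Gam0, l (c s 0 0) = 0 := by
  obtain ⟨h1, h2, h3⟩ := level_facts' C
  exact (hc.rel_diag S l).eq_zero_diag
    (((hc.rel_diag S l).levGE_diag (hc.isChar_diag S l)).succ_of_lcOf h1 h2 h3 h)

include S in
/-- `L(l - n l1) = L(l) - n L(l1)`  (`lcOf_sub`, `lcOf_natCast_mul`, `lcOf_congr`). -/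
theorem LocCoc.Ldiag_sub_nsmul (hc : LocCoc P r c) (l l1 : k →+ ZMod P.ℓ) (n : ℕ) :
    Ldiag C c (l - n • l1) = Ldiag C c l - n * Ldiag C c l1 := by
  obtain ⟨h1, h2, h3⟩ := level_facts' C
  have hl := (hc.rel_diag S l).levGE_diag (hc.isChar_diag S l)
  have hl1 := (hc.rel_diag S l1).levGE_diag (hc.isChar_diag S l1)
  have hl2 := (hc.rel_diag S (n • l1)).levGE_diag (hc.isChar_diag S (n • l1))
  have e1 : Ldiag C c (l - n • l1) =
      C.lcOf (fun s => l (c s 0 0) - (n • l1) (c s 0 0)) (P.ℓ + 1) := rfl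
  have e2 : (fun s => (n • l1) (c s 0 0)) = fun s => (n : ZMod P.ℓ) * l1 (c s 0 0) := by
    funext s
    rw [AddMonoidHom.nsmul_apply, nsmul_eq_mul]
  rw [e1, LamCtx.lcOf_sub h1 h2 h3 hl hl2, e2, LamCtx.lcOf_natCast_mul h1 h2 h3 hl1]
  rfl

include S in
/-- **`φ`-semilinearity**: `c0(φ s φ⁻¹) = - c0(s)` (`LocCoc.conj`, `ad_phi`, trace zero), `LevGE.frob_conj` with `f = 1`:
`θ(φ)^(p+1) (-L)^p = n L`. -/
theorem LocCoc.Ldiag_mem (hc : LocCoc P r c) {n : ℕ} (hn : C.phi C.zeta = C.zeta ^ n) (l : k →+ ZMod P.ℓ) :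
    (-(C.theta C.phi ^ (P.ℓ + 1))) * Ldiag C c l ^ P.ℓ = n * Ldiag C c l := by
  obtain ⟨h1, h2, h3⟩ := level_facts' C
  have hl := (hc.rel_diag S l).levGE_diag (hc.isChar_diag S l)
  have hφ : IsFrob P (P.ℓ ^ 1) C.phi := by rw [pow_one]; exact C.hphi
  obtain ⟨-, hfr⟩ := hl.frob_conj h1 h2 h3 hφ hn
  obtain ⟨a, b, hab⟩ := S.r_phi
  -- the conjugate character is `-ψ` on `Gam0`
  have hconj : ∀ s ∈ C.Gam0, l (c (C.phi * s * C.phi⁻¹) 0 0) = l (c s 0 0) - l (c s 0 0) - l (c s 0 0) := by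
    intro s hs
    have hcj : c (C.phi * s * C.phi⁻¹) = !![c s 1 1, a / b * c s 1 0; b / a * c s 0 1, c s 0 0] := by
      rw [hc.conj S C.hphi.1 hs]
      exact (SSData.ad_phi hab (c s)).2.2
    rw [hcj]
    have htr := hc.tr0 s (C.Gam0_le_dec hs)
    rw [Matrix.trace_fin_two] at htr
    have h11 : c s 1 1 = -(c s 0 0) := by
      rw [eq_neg_iff_add_eq_zero, add_comm]; exact htr
    show l (c s 1 1) = _
    rw [h11, map_neg, sub_self, zero_sub]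
  have e1 : C.lcOf (fun s => l (c (C.phi * s * C.phi⁻¹) 0 0)) (P.ℓ + 1) = -Ldiag C c l := by
    rw [LamCtx.lcOf_congr h1 h2 h3 hconj, LamCtx.lcOf_sub h1 h2 h3 (hl.sub h1 hl) hl,
      LamCtx.lcOf_sub h1 h2 h3 hl hl, sub_self, zero_sub]
    rfl
  rw [e1, pow_one, (P.prime.odd_of_ne_two C.hodd).neg_pow] at hfr
  have hfr' : C.theta C.phi ^ (P.ℓ + 1) * -Ldiag C c l ^ P.ℓ = n * Ldiag C c l := hfr
  rw [← hfr']
  ring

/-- In a field of characteristic `p`: the set `Z = {x | A x^p = B x}` (`A ≠ 0`) has at most `p` elements and is stable under `𝔽_p`-multiples; so if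
`x1 ∈ Z`, `x1 ≠ 0`, every `x ∈ Z` is `n x1`, `n : ℕ`. -/
theorem exists_nat_mul_of_semilin {p : ℕ} [Fact p.Prime] {K : Type} [Field K] [CharP K p] {A B : K} (hA : A ≠ 0)
    {x1 x : K} (h1 : A * x1 ^ p = B * x1) (h10 : x1 ≠ 0) (hx : A * x ^ p = B * x) : ∃ n : ℕ, x = n * x1 := by
  have hne : A * x1 ^ p ≠ 0 := mul_ne_zero hA (pow_ne_zero _ h10)
  have ht : (x / x1) ^ p = x / x1 := by
    have e : (x / x1) ^ p * (A * x1 ^ p) = x / x1 * (A * x1 ^ p) := by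
      have e1 : (x / x1) ^ p * (A * x1 ^ p) = A * x ^ p := by
        rw [div_pow]
        field_simp
      rw [e1, hx, h1]
      field_simp
    exact mul_right_cancel₀ hne e
  have hmem : x / x1 ∈ (⊥ : Subfield K) := (Subfield.mem_bot_iff_pow_eq_self K p).mpr ht
  rw [← ZMod.fieldRange_castHom_eq_bot p] at hmem
  obtain ⟨z, hz⟩ := hmem
  refine ⟨z.val, ?_⟩
  have hz' : ((z.val : ℕ) : K) = x / x1 := by
    rw [← hz, ← map_natCast (ZMod.castHom (m := p) dvd_rfl K), ZMod.natCast_zmod_val]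
  rw [hz', div_mul_cancel₀ _ h10]

include S in
/-- **D3, the line.**
PROOF.  Choose `s1 ∈ Gam0` with `c0(s1) ≠ 0` and `l1` with `l1(c0 s1) ≠ 0` (`exists_functional`, `SSData.charP_k`).  Then `L(l1) ≠ 0` (`diag_zero_of_Ldiag`).
`ψ1 = l1 ∘ c0` has a Kummer root `β` with `β^p ∈ U^(p+1)` (`Rel.levGE_diag`) and `β^p ∉ U^(p+2)` (else `lc = 0`): `U.succ_or_eq` gives the exact
valuation.  If `s β = β` then `ψ1 s = 0` (`Kum.apply_eq_iff`).  For any `l`: `L(l) = n L(l1)` (`Ldiag_mem`, `exists_nat_mul_of_semilin`), so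
`L(l - n l1) = 0`, `l(c0 s) = n l1(c0 s) = 0`.  As `l` is arbitrary `c0 s = 0`. -/
theorem LocCoc.exists_line (hc : LocCoc P r c) (hne : ∃ s ∈ C.Gam0, c s 0 0 ≠ 0) :
    ∃ (l : k →+ ZMod P.ℓ) (β : Qb), C.Kum (fun s => l (c s 0 0)) β ∧
      P.v (β ^ P.ℓ - 1) = P.v C.lam ^ (P.ℓ + 1) ∧ ∀ s ∈ C.Gam0, s β = β → c s 0 0 = 0 := by
  have hfact : Fact P.ℓ.Prime := ⟨P.prime⟩
  have hk : CharP k P.ℓ := S.charP_k
  obtain ⟨h1, h2, h3⟩ := level_facts' C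
  obtain ⟨s1, hs1, hs1ne⟩ := hne
  obtain ⟨l1, hl1⟩ := exists_functional (p := P.ℓ) hs1ne
  have hL1 : Ldiag C c l1 ≠ 0 := fun h => hl1 (hc.diag_zero_of_Ldiag S l1 h s1 hs1)
  obtain ⟨β, hβ, hu⟩ := (hc.rel_diag S l1).levGE_diag (hc.isChar_diag S l1)
  have hlc : Ldiag C c l1 = C.lc (P.ℓ + 1) (β ^ P.ℓ) := hβ.lcOf_eq h1 h2 h3 hu
  refine ⟨l1, β, hβ, ?_, ?_⟩
  · rcases LamCtx.U.succ_or_eq C hβ.inK_pow hu with h | h
    · exact absurd ((C.lc_eq_zero_iff hβ.inK_pow hu).2 h) (by rw [← hlc]; exact hL1)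
    · exact h
  · intro s hs hsβ
    have hψ1 : l1 (c s 0 0) = 0 := (hβ.apply_eq_iff hs).1 hsβ
    by_contra hcs
    obtain ⟨l, hl⟩ := exists_functional (p := P.ℓ) hcs
    obtain ⟨n0, hn0⟩ := LamCtx.exists_zeta_pow C C.phi
    have hA : -(C.theta C.phi ^ (P.ℓ + 1)) ≠ 0 :=
      neg_ne_zero.2 (pow_ne_zero _ (res_ne_zero P (C.v_xi C.phi)))
    obtain ⟨n, hn⟩ := exists_nat_mul_of_semilin (p := P.ℓ) hA (hc.Ldiag_mem S hn0 l1) hL1
      (hc.Ldiag_mem S hn0 l)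
    have h0 : Ldiag C c (l - n • l1) = 0 := by rw [hc.Ldiag_sub_nsmul S, hn, sub_self]
    have h4 := hc.diag_zero_of_Ldiag S _ h0 s hs
    rw [AddMonoidHom.sub_apply, AddMonoidHom.nsmul_apply, hψ1, smul_zero, sub_zero] at h4
    exact hl h4

end Fermat.Agent.S56.F.SS

end
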