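/-
S56 block (F), F-D, D2 + D3: a FLAT local cocycle lies in `LL`.

Model of `E_c = (k[ε])²` (`S56/F/E2.lean`):  `E2 k = k² × k²`, `(a, b) = a + ε b`, `actE r c σ (a, b) = (r σ a, r σ b + c σ r σ a)`.
-/
import Fermat.Agent.S56.F.SS.Line
import Fermat.Agent.S56.F.SS.Abs
import Fermat.Agent.S56.F.E2

set_option autoImplicit false

open Fermat.Agent.PT.Local Matrix
open Fermat.Agent.S53 (G M2)
open Fermat.Agent.S56.C (ad rm)

noncomputable section

namespace Fermat.Agent.S56.F.SS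

section defs

variable {k : Type} [Field k]

/-- flatness of `E_c`, in the form consumed by F-D (`E2 k`, `actE` : helper1's `S56/F/E2.lean`). -/
def FlatE (p : ℕ) (r : G →* GL (Fin 2) k) (c : G → M2 k) : Prop := FlatMod p (E2 k) (actE r c)

theorem flatE_of_flatAt [Finite k] {p : ℕ} {r : G →* GL (Fin 2) k} {c : G → M2 k}
    (h : Fermat.Agent.S56.C.FlatAt r c p) : FlatE p r c := flatMod_of_flatAt h

end defs

/-- **A10'** (consequence of A3 + A10, to be linked with F-A): on a fundamental line `s ≤ ν`. -/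
def Vol {P : Plc} (C : LamCtx P) (F : Type) [Field F] (ι : F →+* FF P) : Prop :=
  ∀ (X X' : Type) [AddCommGroup X] [AddCommGroup X'] [Finite X] [Finite X'] (𝒟 : DualPair P P.ine X X')
    (jj : F →+ X) (m : F), Function.Injective jj → (ι m = C.g0 ∨ ι m = C.g0 ^ P.ℓ) →
    (∀ x, 𝒟.act ⟨C.d0, C.hd0⟩ (jj x) = jj (m * x)) →
    (∀ s : P.ine, (s : GQ) ∈ C.Gam0 → ∀ x, 𝒟.act s (jj x) = jj x) →
    ∀ x : F, x ≠ 0 → ∀ a, 𝒟.Sge (jj x) a → Dv P a C.lam

variable {P : Plc} {C : LamCtx P} {F k : Type} [Field F] [Field k] [Algebra F k]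
  {r : G →* GL (Fin 2) k} {c : G → M2 k} (S : SSData C F k r)

theorem Flat_diag_pow {R : Type*} [CommRing R] (a b : R) (n : ℕ) :
    (!![a, 0; 0, b] : Matrix (Fin 2) (Fin 2) R) ^ n = !![a ^ n, 0; 0, b ^ n] := by
  induction n with
  | zero =>
    ext i j
    fin_cases i <;> fin_cases j <;> simp
  | succ n ih =>
    rw [pow_succ, ih]
    ext i j
    fin_cases i <;> fin_cases j <;> simp [Matrix.mul_apply, Fin.sum_univ_two, pow_succ]

/-- `r` is diagonal on inertia (`exists_pow_mul`, `r_d0`, `r_Gam0`). -/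
theorem SSData.r_ine {s : G} (hs : s ∈ P.ine) :
    ∃ n : ℕ, rm r s = !![algebraMap F k (S.t0 ^ n), 0; 0, algebraMap F k ((S.t0 ^ P.ℓ) ^ n)] := by
  obtain ⟨n, s0, hs0, rfl⟩ := C.exists_pow_mul hs
  refine ⟨n, ?_⟩
  have h1 : rm r (C.d0 ^ n * s0) = rm r C.d0 ^ n := by
    unfold rm
    rw [map_mul, map_pow, S.r_Gam0 s0 hs0, mul_one, Units.val_pow_eq_pow_val]
  rw [h1, S.r_d0, Flat_diag_pow, map_pow, map_pow, map_pow]

/-- The subgroup `C'_i = ε {b | l'(b_i) = 0}` of `E_c`. -/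
def Cq (i : Fin 2) (l' : k →ₗ[F] F) : AddSubgroup (E2 k) where
  carrier := {x | x.1 = 0 ∧ l' (x.2 i) = 0}
  zero_mem' := by simp
  add_mem' := by
    rintro x y ⟨hx, hx'⟩ ⟨hy, hy'⟩
    exact ⟨by simp [hx, hy], by simp [hx', hy']⟩
  neg_mem' := by
    rintro x ⟨hx, hx'⟩
    exact ⟨by simp [hx], by simp [hx']⟩

/-- the eigenvalue of `d0` on the `i`-th coordinate -/
def SSData.mm (i : Fin 2) : F := if i = 0 then S.t0 else S.t0 ^ P.ℓ

/-- the diagonal action of inertia on the coordinates. -/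
theorem SSData.Flat_mulVec_ine {s : G} (hs : s ∈ P.ine) :
    ∃ n : ℕ, ∀ (v : Fin 2 → k) (i : Fin 2), (rm r s *ᵥ v) i = algebraMap F k (S.mm i ^ n) * v i := by
  obtain ⟨n, hn⟩ := S.r_ine hs
  refine ⟨n, fun v i => ?_⟩
  rw [hn]
  fin_cases i <;> simp [SSData.mm, Matrix.mulVec, dotProduct, Fin.sum_univ_two]

theorem SSData.Flat_mulVec_d0 (v : Fin 2 → k) (i : Fin 2) :
    (rm r C.d0 *ᵥ v) i = algebraMap F k (S.mm i) * v i := by
  rw [S.r_d0]
  fin_cases i <;> simp [SSData.mm, Matrix.mulVec, dotProduct, Fin.sum_univ_two]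

theorem SSData.Flat_gen (i : Fin 2) {x : F} (hx : x ≠ 0) : ∃ n : ℕ, x = S.mm i ^ n := by
  obtain ⟨n, rfl⟩ := S.exists_pow_eq hx
  fin_cases i
  · exact ⟨n, by simp [SSData.mm]⟩
  · refine ⟨P.ℓ * n, ?_⟩
    have h1 : S.t0 ^ (P.ℓ * P.ℓ) = S.t0 := by
      have h2 : P.ℓ * P.ℓ = C.e + 1 := by
        have h3 : 1 < P.ℓ ^ 2 := Nat.one_lt_pow (by norm_num) P.prime.one_lt
        have h4 : C.e = P.ℓ ^ 2 - 1 := rfl
        rw [h4, ← pow_two]
        omega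
      rw [h2, pow_succ, S.t0_prim.pow_eq_one, one_mul]
    have h5 : S.mm (1 : Fin 2) = S.t0 ^ P.ℓ := by simp [SSData.mm]
    show S.t0 ^ n = S.mm (1 : Fin 2) ^ (P.ℓ * n)
    rw [h5, ← pow_mul, ← mul_assoc, pow_mul, h1]

/-- **The concrete fundamental line.**  `𝒟` a dual pair over `I` on `E_c` (with the action `actE`), `l' b0 = 1`.
Then `C'_i` is stable, and in `𝒬 = 𝒟.quot C'_i` the map `jj x = mk (0, x b0 e_i)` is a fundamental line with `m = t0^(p^i)`; moreover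
`s x1 - x1 = jj (l' (c s i 0))` for `x1 = mk (e_0, 0)`, `s ∈ Gam0`.
(`mk (0, b) = jj (l' (b i))` because `(0, b - l'(b i) b0 e_i) ∈ C'_i`.  `gen`: `SSData.exists_pow_eq` and `gcd(p, p²-1) = 1`.  `sge`: `hvol`.) -/
theorem exists_fline [Finite k] [Finite F] (hvol : Vol C F S.ι) {X' : Type} [AddCommGroup X'] [Finite X']
    (𝒟 : DualPair P P.ine (E2 k) X') (hact : ∀ (γ : P.ine) (x : E2 k), 𝒟.act γ x = actE r c γ x)
    (i : Fin 2) (l' : k →ₗ[F] F) (hl' : l' ≠ 0) :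
    ∃ (hst : 𝒟.Stable (Cq i l')) (jj : F →+ E2 k ⧸ Cq i l'), IsFLine C (𝒟.quot (Cq i l') hst) jj (S.mm i) ∧
      ∀ s : P.ine, (s : GQ) ∈ C.Gam0 →
        (𝒟.quot (Cq i l') hst).act s (QuotientAddGroup.mk ((Pi.single 0 1, 0) : E2 k)) -
          QuotientAddGroup.mk ((Pi.single 0 1, 0) : E2 k) = jj (l' (c s i 0)) := by
  classical
  obtain ⟨y, hy⟩ : ∃ y, l' y ≠ 0 := by
    by_contra hcon
    push Not at hcon
    exact hl' (LinearMap.ext hcon)
  obtain ⟨b0, hlb0⟩ : ∃ b0, l' b0 = 1 :=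
    ⟨(l' y)⁻¹ • y, by rw [map_smul, smul_eq_mul, inv_mul_cancel₀ hy]⟩
  have hlalg : ∀ (μ : F) (z : k), l' (algebraMap F k μ * z) = μ * l' z := by
    intro μ z
    rw [← Algebra.smul_def, map_smul, smul_eq_mul]
  have hact0 : ∀ (γ : P.ine) (b : Fin 2 → k),
      𝒟.act γ ((0, b) : E2 k) = ((0, rm r γ *ᵥ b) : E2 k) := by
    intro γ b
    rw [hact]
    refine Prod.ext ?_ ?_
    · show rm r γ *ᵥ (0 : Fin 2 → k) = 0
      rw [Matrix.mulVec_zero]
    · show rm r γ *ᵥ b + (c γ * rm r γ) *ᵥ (0 : Fin 2 → k) = rm r γ *ᵥ b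
      rw [Matrix.mulVec_zero, add_zero]
  have hst : 𝒟.Stable (Cq i l') := by
    intro γ x hx
    obtain ⟨n, hn⟩ := S.Flat_mulVec_ine γ.2
    obtain ⟨hx1, hx2⟩ := hx
    have hx' : x = (0, x.2) := Prod.ext hx1 rfl
    rw [hx', hact0]
    refine ⟨rfl, ?_⟩
    show l' ((rm r γ *ᵥ x.2) i) = 0
    rw [hn, hlalg, hx2, mul_zero]
  let jj0 : F →+ E2 k :=
    { toFun := fun x => (0, Pi.single i (x • b0))
      map_zero' := by simp
      map_add' := fun x y => by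
        refine Prod.ext (by simp) ?_
        show (Pi.single i ((x + y) • b0) : Fin 2 → k) =
          (Pi.single i (x • b0) : Fin 2 → k) + (Pi.single i (y • b0) : Fin 2 → k)
        rw [add_smul, Pi.single_add] }
  let jj : F →+ E2 k ⧸ Cq i l' := (QuotientAddGroup.mk' (Cq i l')).comp jj0
  have hjj : ∀ x, jj x = QuotientAddGroup.mk ((0, Pi.single i (x • b0)) : E2 k) := fun x => rfl
  have hkey : ∀ b : Fin 2 → k,
      (QuotientAddGroup.mk ((0, b) : E2 k) : E2 k ⧸ Cq i l') = jj (l' (b i)) := by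
    intro b
    rw [hjj, QuotientAddGroup.eq]
    refine ⟨by simp, ?_⟩
    show l' ((-b + (Pi.single i (l' (b i) • b0) : Fin 2 → k)) i) = 0
    rw [Pi.add_apply, Pi.neg_apply, Pi.single_eq_same, map_add, map_neg, map_smul, hlb0, smul_eq_mul,
      mul_one, neg_add_cancel]
  have hinj : Function.Injective jj := by
    rw [injective_iff_map_eq_zero]
    intro x hx
    rw [hjj, QuotientAddGroup.eq_zero_iff] at hx
    have h1 : l' ((Pi.single i (x • b0) : Fin 2 → k) i) = 0 := hx.2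
    rwa [Pi.single_eq_same, map_smul, hlb0, smul_eq_mul, mul_one] at h1
  have hactjj : ∀ (γ : P.ine) (μ : F),
      (∀ v : Fin 2 → k, (rm r γ *ᵥ v) i = algebraMap F k μ * v i) →
      ∀ x, (𝒟.quot (Cq i l') hst).act γ (jj x) = jj (μ * x) := by
    intro γ μ hμ x
    rw [hjj, DualPair.quot_act, hact0, hkey, hμ, Pi.single_eq_same, hlalg, map_smul, hlb0, smul_eq_mul,
      mul_one]
  have hd0 : ∀ x, (𝒟.quot (Cq i l') hst).act ⟨C.d0, C.hd0⟩ (jj x) = jj (S.mm i * x) :=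
    hactjj ⟨C.d0, C.hd0⟩ (S.mm i) (fun v => S.Flat_mulVec_d0 v i)
  have hrm1 : ∀ s : P.ine, (s : GQ) ∈ C.Gam0 → rm r s = 1 := by
    intro s hs
    unfold rm
    rw [S.r_Gam0 _ hs, Units.val_one]
  have hG0 : ∀ s : P.ine, (s : GQ) ∈ C.Gam0 → ∀ x, (𝒟.quot (Cq i l') hst).act s (jj x) = jj x := by
    intro s hs x
    have h1 := hactjj s 1 (fun v => by rw [hrm1 s hs, Matrix.one_mulVec, map_one, one_mul]) x
    rwa [one_mul] at h1
  have hm : S.ι (S.mm i) = C.g0 ∨ S.ι (S.mm i) = C.g0 ^ P.ℓ := by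
    fin_cases i
    · left
      simp [SSData.mm, S.hι]
    · right
      simp [SSData.mm, S.hι]
  refine ⟨hst, jj, ⟨hinj, hd0, hG0, fun x hx => S.Flat_gen i hx,
    hvol _ _ (𝒟.quot (Cq i l') hst) jj (S.mm i) hinj hm hd0 hG0⟩, fun s hs => ?_⟩
  rw [DualPair.quot_act, hact, ← QuotientAddGroup.mk_sub]
  have h1 : actE r c s ((Pi.single 0 1, 0) : E2 k) - ((Pi.single 0 1, 0) : E2 k) =
      ((0, (c s) *ᵥ Pi.single 0 1) : E2 k) := by
    refine Prod.ext ?_ ?_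
    · show rm r s *ᵥ (Pi.single 0 1 : Fin 2 → k) - Pi.single 0 1 = 0
      rw [hrm1 s hs, Matrix.one_mulVec, sub_self]
    · show rm r s *ᵥ (0 : Fin 2 → k) + (c s * rm r s) *ᵥ (Pi.single 0 1 : Fin 2 → k) - 0 = _
      rw [hrm1 s hs, Matrix.mulVec_zero, zero_add, mul_one, sub_zero]
  rw [h1, hkey]
  congr 2
  simp

include S in
/-- **The key inequality** (D2 and D3 together). -/
theorem key [Finite k] (hvol : Vol C F S.ι) (hfl : FlatE P.ℓ r c) (i : Fin 2) (l' : k →ₗ[F] F)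
    (A : AddSubgroup F) {ψ : GQ → ZMod P.ℓ} {β : Qb} (hβ : C.Kum ψ β) {j : ℕ} (hj : 1 ≤ j)
    (hj' : j < P.ℓ ^ 2 + P.ℓ) (hpj : ¬ P.ℓ ∣ j) (hu : P.v (β ^ P.ℓ - 1) = P.v C.lam ^ j)
    (hstab : ∀ s ∈ C.Gam0, s β = β → l' (c s i 0) ∈ A) {γ : GQ} (hγ : γ ∈ C.Gam0) (hγA : l' (c γ i 0) ∉ A) :
    P.ℓ ^ 2 + P.ℓ ≤ j + P.ℓ * Nat.card A := by
  have hF : Finite F := Nat.finite_of_card_ne_zero (by rw [S.cardF]; exact pow_ne_zero _ P.prime.ne_zero)
  have hl' : l' ≠ 0 := by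
    rintro rfl
    exact hγA (by simp)
  obtain ⟨X', _, _, 𝒟, hact⟩ := exists_dualPair_of_flatMod P P.ine (actE r c) hfl
  obtain ⟨hst, jj, hline, hx1⟩ := exists_fline S hvol 𝒟 hact i l' hl'
  exact hline.bound A _ (fun s => l' (c s i 0)) hx1 hβ hj hj' hpj hu hstab hγ hγA

include S in
/-- **D2.**  PROOF: `ψ = τ ∘ l' ∘ c-` has a Kummer root `β` with `β^p ∈ U^(2)` (`Rel.levGE_two`, `isChar_low`, `rel_low`, `T_FF`).  `U.succ_or_eq`: either done or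
`v(β^p - 1) = 2ν`.  In the second case: if `ψ = 0` on `Gam0`, `β ∈ K` and (U1) `U_succ_of_pow` gives `U^(3)`.  Otherwise `ψ γ ≠ 0`; `key` with `i = 1`,
`A = ker τ` (`#A = p`: `τ` is onto `ℤ/p` and `#F = p²`) gives `p² + p ≤ 2 + p²`: contradiction. -/
theorem levGE_three_of_flat [Finite k] (hvol : Vol C F S.ι) (hc : LocCoc P r c) (hfl : FlatE P.ℓ r c)
    (τ : F →+ ZMod P.ℓ) (l' : k →ₗ[F] F) : C.LevGE (fun s => τ (l' (c s 1 0))) 3 := by
  have hp := C.three_le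
  have hchar : C.IsChar (fun s => τ (l' (c s 1 0))) := hc.isChar_low S (τ.comp l'.toAddMonoidHom)
  have hrel : C.Rel S.T (fun s => τ (l' (c s 1 0))) := hc.rel_low S τ l'
  obtain ⟨β, hβ, hu⟩ := hrel.levGE_two hchar S.T_FF
  have hj' : 2 < P.ℓ ^ 2 + P.ℓ := by nlinarith
  have hpj : ¬ P.ℓ ∣ 2 := fun h => by
    have := Nat.le_of_dvd (by norm_num) h
    omega
  rcases LamCtx.U.succ_or_eq C hβ.inK_pow hu with h3 | hex
  · exact ⟨β, hβ, h3⟩
  by_cases h0 : ∀ s ∈ C.Gam0, τ (l' (c s 1 0)) = 0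
  · exact ⟨β, hβ, C.U_succ_of_pow (by norm_num) hj' hpj (hβ.inK_of_zero h0) hu⟩
  exfalso
  push Not at h0
  obtain ⟨γ, hγ, hγ0⟩ := h0
  have hkey := key S hvol hfl 1 l' τ.ker hβ (by norm_num) hj' hpj hex
    (fun s hs hsβ => (AddMonoidHom.mem_ker).2 ((hβ.apply_eq_iff hs).1 hsβ)) hγ
    (fun h => hγ0 ((AddMonoidHom.mem_ker).1 h))
  -- `# ker τ = p`
  have hsurj : Function.Surjective τ := by
    intro y
    refine ⟨(y / τ (l' (c γ 1 0))).val • l' (c γ 1 0), ?_⟩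
    rw [map_nsmul, nsmul_eq_mul, ZMod.natCast_zmod_val, div_mul_cancel₀ _ hγ0]
  have hcard : Nat.card τ.ker * P.ℓ = P.ℓ ^ 2 := by
    have h1 := AddSubgroup.card_mul_index τ.ker
    rw [AddSubgroup.index_ker, AddMonoidHom.range_eq_top.2 hsurj, S.cardF] at h1
    rw [← h1]
    congr 1
    rw [Nat.card_congr (AddSubgroup.topEquiv (G := ZMod P.ℓ)).toEquiv, Nat.card_zmod]
  have hcard' : Nat.card τ.ker = P.ℓ := by
    have : Nat.card τ.ker * P.ℓ = P.ℓ * P.ℓ := by rw [hcard]; ring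
    exact Nat.eq_of_mul_eq_mul_right P.prime.pos this
  rw [hcard'] at hkey
  nlinarith

include S in
/-- **D3.**  PROOF: otherwise `LocCoc.exists_line` gives `β` of exact level `p + 1` whose stabiliser kills `c0`; choose `γ ∈ Gam0` with `c0 γ ≠ 0` and an `F`-linear
`l'` with `l' (c0 γ) ≠ 0`; `key` with `i = 0`, `A = ⊥` gives `p² + p ≤ (p + 1) + p`: contradiction. -/
theorem diag_zero_of_flat [Finite k] (hvol : Vol C F S.ι) (hc : LocCoc P r c) (hfl : FlatE P.ℓ r c) :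
    ∀ s ∈ C.Gam0, c s 0 0 = 0 := by
  have hp := C.three_le
  by_contra hcon
  push Not at hcon
  obtain ⟨γ, hγ, hγ0⟩ := hcon
  obtain ⟨l, β, hβ, hu, hstab⟩ := hc.exists_line S ⟨γ, hγ, hγ0⟩
  obtain ⟨h1, h2, h3⟩ := level_facts' C
  obtain ⟨l', hl'⟩ : ∃ l' : k →ₗ[F] F, l' (c γ 0 0) ≠ 0 := by
    by_contra hcon
    push Not at hcon
    exact hγ0 ((Module.forall_dual_apply_eq_zero_iff F (c γ 0 0)).1 hcon)
  have hkey := key S hvol hfl 0 l' ⊥ hβ h1 h2 h3 hu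
    (fun s hs hsβ => by rw [hstab s hs hsβ, map_zero]; exact AddSubgroup.zero_mem _) hγ
    (fun h => hl' ((AddSubgroup.mem_bot).1 h))
  rw [AddSubgroup.card_bot] at hkey
  nlinarith

include S in
/-- **(i)** flat cocycles lie in `LL`. -/
theorem LL_of_flat [Finite k] (hvol : Vol C F S.ι) (hc : LocCoc P r c) (hfl : FlatE P.ℓ r c)
    (τ : F →+ ZMod P.ℓ) : LL C τ r c :=
  ⟨hc, diag_zero_of_flat S hvol hc hfl, fun l' =>
    (hc.rel_low S τ l').levGE_of_three S.T_FF (levGE_three_of_flat S hvol hc hfl τ l')⟩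

end Fermat.Agent.S56.F.SS

end
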