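/-
S56 block (F), F-D: conjugation of `(r, c)` by a matrix `B ∈ GL₂(k)`; everything is invariant.
-/
import Fermat.Agent.S56.F.SS.Flat
import Fermat.Agent.S56.B.Contracts
import Fermat.Agent.S56.F.Model

set_option autoImplicit false

open Fermat.Agent.PT.Local Matrix
open Fermat.Agent.S53 (G M2)
open Fermat.Agent.S56.C (ad rm IsCoc)

noncomputable section

namespace Fermat.Agent.S56.F.SS

variable {k : Type} [Field k]

/-- `σ ↦ B⁻¹ r(σ) B`. -/
def conjRep (B : GL (Fin 2) k) (r : G →* GL (Fin 2) k) : G →* GL (Fin 2) k :=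
  (MulAut.conj B⁻¹).toMonoidHom.comp r

/-- `σ ↦ B⁻¹ c(σ) B`. -/
def conjCoc (B : GL (Fin 2) k) (c : G → M2 k) : G → M2 k := fun σ => ad B⁻¹ (c σ)

variable (B : GL (Fin 2) k) (r : G →* GL (Fin 2) k) (c c' : G → M2 k)

theorem conjRep_apply (σ : G) : conjRep B r σ = B⁻¹ * r σ * B := by
  simp [conjRep, MulAut.conj_apply]

theorem ad_conjRep (σ : G) (X : M2 k) : ad (conjRep B r σ) (ad B⁻¹ X) = ad B⁻¹ (ad (r σ) X) := by
  rw [conjRep_apply, ← ad_mul, ← ad_mul]
  congr 1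
  group

theorem conjCoc_add : conjCoc B (c + c') = conjCoc B c + conjCoc B c' := by
  funext σ
  simp [conjCoc, ad_add]

theorem conjCoc_sub : conjCoc B (c - c') = conjCoc B c - conjCoc B c' := by
  funext σ
  simp [conjCoc, ad_sub]

theorem conjCoc_inv_conjCoc : conjCoc B⁻¹ (conjCoc B c) = c := by
  funext σ
  simp [conjCoc, ← ad_mul, ad_one]

theorem conjCoc_cob (X : M2 k) :
    conjCoc B (fun σ => ad (r σ) X - X) = fun σ => ad (conjRep B r σ) (ad B⁻¹ X) - ad B⁻¹ X := by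
  funext σ
  simp [conjCoc, ad_sub, ad_conjRep]

variable {B r c}

theorem rSmooth_conj (h : Fermat.Agent.S56.B.RSmooth r) : Fermat.Agent.S56.B.RSmooth (conjRep B r) := by
  obtain ⟨N, hN, h⟩ := h
  exact ⟨N, hN, fun s hs => by rw [conjRep_apply, h s hs]; group⟩

theorem rm_conjRep (B : GL (Fin 2) k) (r : G →* GL (Fin 2) k) (σ : G) :
    rm (conjRep B r) σ = ((B⁻¹ : GL (Fin 2) k) : M2 k) * rm r σ * (B : M2 k) := by
  simp [rm, conjRep_apply]

theorem detOmega_conj {p : ℕ} (h : DetOmega p r) : DetOmega p (conjRep B r) := by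
  intro σ a ha
  rw [rm_conjRep, Matrix.det_mul, Matrix.det_mul, mul_right_comm, ← Matrix.det_mul, ← Units.val_mul,
    inv_mul_cancel, Units.val_one, Matrix.det_one, one_mul]
  exact h σ a ha

/-- global cocycle data give a local cocycle for the conjugate. -/
theorem locCoc_conj (P : Plc) (hc : IsCoc r c) (hs : Fermat.Agent.S56.C.Smooth c)
    (ht : Fermat.Agent.S56.C.TraceZero c) : LocCoc P (conjRep B r) (conjCoc B c) := by
  refine ⟨fun g _ g' _ => ?_, ?_, fun g _ => ?_⟩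
  · simp only [conjCoc]
    rw [hc g g', ad_add, ad_conjRep]
  · obtain ⟨N, hN, hcN⟩ := hs
    exact ⟨N, hN, fun σ _ hx => by simp only [conjCoc]; rw [hcN σ hx, ad_zero]⟩
  · simp only [conjCoc]
    rw [trace_ad]
    exact ht g

/-- `FlatMod` is invariant under equivariant isomorphisms. -/
theorem flatMod_congr {p : ℕ} {X Y : Type} [AddCommGroup X] [AddCommGroup Y] {act : GQ → X →+ X}
    {act' : GQ → Y →+ Y} (e : X ≃+ Y) (he : ∀ σ x, e (act σ x) = act' σ (e x)) (h : FlatMod p X act) :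
    FlatMod p Y act' := FlatMod.congr e he h

/-- (`e (a, b) = (B⁻¹ a, B⁻¹ b)`.) -/
theorem flatE_conj {p : ℕ} (h : FlatE p r c) : FlatE p (conjRep B r) (conjCoc B c) :=
  flatMod_conj B⁻¹ r c h

/-- a coboundary `ad(r σ) X - X` does not change if `X` is replaced by its trace zero part `X - (tr X / 2)` (`2 ≠ 0` in `k`). -/
theorem exists_trace_zero (h2 : (2 : k) ≠ 0) (X : M2 k) :
    ∃ X0 : M2 k, X0.trace = 0 ∧ ∀ g : GL (Fin 2) k, ad g X0 - X0 = ad g X - X := by
  refine ⟨X - (X.trace / 2) • (1 : M2 k), ?_, fun g => ?_⟩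
  · rw [Matrix.trace_sub, Matrix.trace_smul, Matrix.trace_one, Fintype.card_fin, smul_eq_mul]
    push_cast
    field_simp
    ring
  · have h1 : ad g (1 : M2 k) = 1 := by
      simp [ad]
    rw [ad_sub, ad_smul, h1]
    abel

/-- `CobOn` for the conjugate gives a trace zero coboundary for `r`. -/
theorem cob_of_cobOn_conj (P : Plc) (h2 : (2 : k) ≠ 0) {t : G → M2 k}
    (h : CobOn P (conjRep B r) (conjCoc B c - t)) :
    ∃ X : M2 k, X.trace = 0 ∧ ∀ σ ∈ P.dec, c σ - conjCoc B⁻¹ t σ = ad (r σ) X - X := by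
  obtain ⟨X, hX⟩ := h
  obtain ⟨X0, hX0, hX0'⟩ := exists_trace_zero h2 (ad B X)
  refine ⟨X0, hX0, fun σ hσ => ?_⟩
  rw [hX0']
  have h1 := hX σ hσ
  have h3 := congrArg (ad B) h1
  simp only [Pi.sub_apply, conjCoc] at h3
  rw [ad_sub, ad_sub, ← ad_mul, mul_inv_cancel, ad_one] at h3
  simp only [conjCoc, inv_inv]
  rw [h3, conjRep_apply, ← ad_mul, ← ad_mul]
  congr 2
  group

end Fermat.Agent.S56.F.SS

end
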