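/-
S56 block (F), F-D: A10 (VOL) in the form used in the supersingular case:  a dual pair over inertia on a group `X` of order `p²` on which inertia acts
"by a character `η` with `η^(p+1) = ω`" has `s = ν` on `X \ 0`.
-/
import Fermat.Agent.S56.F.Order.Vol.Main
import Fermat.Agent.S56.F.SS.Flat

set_option autoImplicit false

open Fermat.Agent.PT.Local

noncomputable section

namespace Fermat.Agent.S56.F.SS

section char

variable {P : Plc} {X X' : Type} [AddCommGroup X] [AddCommGroup X'] [Finite X] [Finite X']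
  (𝒟 : DualPair P P.ine X X') {K : Type} [Field K] [Finite K] [CharP K P.ℓ]
  (u : X →+ K) (η : P.ine → K)

/-- `η` is multiplicative and non zero (`X ≠ 0`; `act_mul`, `act_one`, `u` injective). -/
theorem VolChar_eta_mul [Nontrivial X] (hu : Function.Injective u) (hact : ∀ γ x, u (𝒟.act γ x) = η γ * u x) :
    η 1 = 1 ∧ (∀ γ γ', η (γ * γ') = η γ * η γ') ∧ ∀ γ, η γ ≠ 0 := by
  obtain ⟨x, hx⟩ := exists_ne (0 : X)
  have hux : u x ≠ 0 := by
    intro h0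
    exact hx (hu (by rw [h0, map_zero]))
  have h1 : η 1 = 1 := by
    have h := hact 1 x
    rw [𝒟.act_one] at h
    exact (mul_right_cancel₀ hux (by rw [one_mul]; exact h)).symm
  have hm : ∀ γ γ', η (γ * γ') = η γ * η γ' := by
    intro γ γ'
    have h := hact (γ * γ') x
    rw [𝒟.act_mul, hact, hact, ← mul_assoc] at h
    exact (mul_right_cancel₀ hux h).symm
  refine ⟨h1, hm, fun γ h0 => ?_⟩
  have h := hm γ γ⁻¹
  rw [mul_inv_cancel, h1, h0, zero_mul] at h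
  exact one_ne_zero h

/-- a generator of the finite cyclic group `η(I) ⊆ K^×`. (The range of the monoid hom `I → Kˣ` is a subgroup of the cyclic group `Kˣ`.) -/
theorem VolChar_exists_gen [Nontrivial X] (hu : Function.Injective u)
    (hact : ∀ γ x, u (𝒟.act γ x) = η γ * u x) :
    ∃ σ₀ : P.ine, ∀ γ, ∃ j : ℕ, η γ = η σ₀ ^ j := by
  obtain ⟨h1, hm, h0⟩ := VolChar_eta_mul 𝒟 u η hu hact
  let φ : P.ine →* Kˣ :=
    { toFun := fun γ => Units.mk0 (η γ) (h0 γ)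
      map_one' := by
        apply Units.ext
        exact h1
      map_mul' := by
        intro γ γ'
        apply Units.ext
        exact hm γ γ' }
  obtain ⟨⟨g, σ₀, rfl⟩, hg⟩ := IsCyclic.exists_generator (α := φ.range)
  refine ⟨σ₀, fun γ => ?_⟩
  have h2 := hg ⟨φ γ, γ, rfl⟩
  rw [← mem_powers_iff_mem_zpowers] at h2
  obtain ⟨j, hj⟩ := h2
  refine ⟨j, ?_⟩
  have h3 := congrArg (fun z : φ.range => ((z : Kˣ) : K)) hj
  simpa [φ] using h3.symm

/-- `CycFree` on `X`, `d = orderOf (η σ₀)`. -/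
theorem VolChar_cycFree [Nontrivial X] (hu : Function.Injective u) (hact : ∀ γ x, u (𝒟.act γ x) = η γ * u x)
    {σ₀ : P.ine} (hgen : ∀ γ, ∃ j : ℕ, η γ = η σ₀ ^ j) : Vol.CycFree 𝒟.act σ₀ (orderOf (η σ₀)) := by
  obtain ⟨h1, hm, h0⟩ := VolChar_eta_mul 𝒟 u η hu hact
  have hpow : ∀ j : ℕ, η (σ₀ ^ j) = η σ₀ ^ j := by
    intro j
    induction j with
    | zero => rw [pow_zero, pow_zero, h1]
    | succ j ih => rw [pow_succ, pow_succ, hm, ih]
  refine ⟨fun σ => ?_, fun x => ?_, fun j hj hjd x hx => ?_⟩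
  · obtain ⟨j, hj⟩ := hgen σ
    refine ⟨j, fun x => hu ?_⟩
    rw [hact, hact, hpow, hj]
  · apply hu
    rw [hact, hpow, pow_orderOf_eq_one, one_mul]
  · have h2 := hact (σ₀ ^ j) x
    rw [hx, hpow] at h2
    have h3 : η σ₀ ^ j ≠ 1 := pow_ne_one_of_lt_orderOf hj.ne' hjd
    have h4 : (η σ₀ ^ j - 1) * u x = 0 := by
      rw [sub_mul, one_mul, ← h2, sub_self]
    have h5 : u x = 0 := (mul_eq_zero.1 h4).resolve_left (sub_ne_zero.2 h3)
    exact hu (by rw [h5, map_zero])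

/-- `CycFree` on the dual `X'`.
PROOF.  `p X = 0` (`u` injective, `CharP K p`), so `e x w` is a `p`-th root of unity, a power of `ζ`.  For `γ ∈ I` with `γ ζ = ζ^n`:
`e (act γ x) (act' γ w) = γ (e x w) = (e x w)^n = e (n • x) w`   (*).
`cyc`: if `η γ = η σ₀^j = η (σ₀^j)` then `act γ = act (σ₀^j)` on `X` and, by `hω`, the exponents `n`, `n'` of `γ`, `σ₀^j` agree in `K`, hence mod `p`; (*) and
`act_bijective`, `nondeg_right` give `act' γ w = act' (σ₀^j) w`.   `ord`: the same with `γ = σ₀^d`, `1`.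
`free`: `act' (σ₀^j) w = w`, `0 < j < d`.  By (*) `e ((act (σ₀^j) - n) x) w = 1` for all `x`.  `u ((act (σ₀^j) - n) x) = (η^j - η^(j(p+1))) u x` and
`η^j ≠ η^(j(p+1))` since `d ∤ j p` (`d` is prime to `p`: it divides `#K - 1`).  So `x ↦ act (σ₀^j) x - n • x` is injective, hence surjective (`X` finite), and `w = 0`
by `nondeg_right`. -/
theorem VolChar_cycFree' [Nontrivial X] (hu : Function.Injective u) (hact : ∀ γ x, u (𝒟.act γ x) = η γ * u x)
    {ζ : Qb} (hζ : IsPrimitiveRoot ζ P.ℓ)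
    (hω : ∀ (γ : P.ine) (n : ℕ), (γ : GQ) ζ = ζ ^ n → (n : K) = η γ ^ (P.ℓ + 1))
    {σ₀ : P.ine} (hgen : ∀ γ, ∃ j : ℕ, η γ = η σ₀ ^ j) : Vol.CycFree 𝒟.act' σ₀ (orderOf (η σ₀)) := by
  classical
  haveI : Fact P.ℓ.Prime := ⟨P.prime⟩
  haveI : NeZero P.ℓ := ⟨P.prime.ne_zero⟩
  obtain ⟨hη1, hηmul, hη0⟩ := VolChar_eta_mul 𝒟 u η hu hact
  have hηpow : ∀ j : ℕ, η (σ₀ ^ j) = η σ₀ ^ j := by
    intro j
    induction j with
    | zero => rw [pow_zero, pow_zero, hη1]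
    | succ j ih => rw [pow_succ, pow_succ, hηmul, ih]
  have hpX : ∀ x : X, P.ℓ • x = 0 := by
    intro x
    apply hu
    rw [map_nsmul, map_zero, nsmul_eq_mul, CharP.cast_eq_zero, zero_mul]
  have hroot : ∀ x w, 𝒟.e x w ^ P.ℓ = 1 := by
    intro x w
    rw [← 𝒟.e_nsmul_left, hpX, 𝒟.e_zero_left]
  have hexp : ∀ γ : P.ine, ∃ n : ℕ, (γ : GQ) ζ = ζ ^ n := by
    intro γ
    have h : ((γ : GQ) ζ) ^ P.ℓ = 1 := by rw [← map_pow, hζ.pow_eq_one, map_one]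
    obtain ⟨i, -, hi⟩ := hζ.eq_pow_of_pow_eq_one h
    exact ⟨i, hi.symm⟩
  have hstar : ∀ (γ : P.ine) (n : ℕ), (γ : GQ) ζ = ζ ^ n → ∀ x w,
      𝒟.e (𝒟.act γ x) (𝒟.act' γ w) = 𝒟.e x w ^ n := by
    intro γ n hn x w
    rw [𝒟.e_act]
    obtain ⟨i, -, hi⟩ := hζ.eq_pow_of_pow_eq_one (hroot x w)
    rw [← hi, map_pow, hn, ← pow_mul, ← pow_mul, mul_comm]
  have hsep : ∀ w w' : X', (∀ y, 𝒟.e y w = 𝒟.e y w') → w = w' := by
    intro w w' h
    rw [← sub_eq_zero]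
    apply 𝒟.nondeg_right
    intro y
    rw [sub_eq_add_neg, 𝒟.e_add_right, 𝒟.e_neg_right, h y, mul_inv_cancel₀ (𝒟.e_ne_zero _ _)]
  have keyA : ∀ γ γ' : P.ine, η γ = η γ' → ∀ w, 𝒟.act' γ w = 𝒟.act' γ' w := by
    intro γ γ' hγ w
    obtain ⟨n, hn⟩ := hexp γ
    obtain ⟨n', hn'⟩ := hexp γ'
    have h1 : (n : K) = (n' : K) := by rw [hω γ n hn, hω γ' n' hn', hγ]
    rw [CharP.natCast_eq_natCast K P.ℓ] at h1
    have hact' : ∀ x, 𝒟.act γ x = 𝒟.act γ' x := by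
      intro x
      apply hu
      rw [hact, hact, hγ]
    apply hsep
    intro y
    obtain ⟨x, rfl⟩ := (𝒟.act_bijective γ).2 y
    rw [hstar γ n hn]
    conv_rhs => rw [hact' x, hstar γ' n' hn']
    rw [pow_eq_pow_mod n (hroot x w), pow_eq_pow_mod n' (hroot x w), h1]
  refine ⟨fun σ => ?_, fun w => ?_, fun j hj0 hjd w hw => ?_⟩
  · obtain ⟨j, hj⟩ := hgen σ
    exact ⟨j, keyA σ (σ₀ ^ j) (by rw [hj, hηpow])⟩
  · rw [keyA (σ₀ ^ orderOf (η σ₀)) 1 (by rw [hηpow, pow_orderOf_eq_one, hη1])]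
    exact 𝒟.swap.act_one w
  · obtain ⟨n, hn⟩ := hexp (σ₀ ^ j)
    have hne : η (σ₀ ^ j) - (n : K) ≠ 0 := by
      rw [hω _ n hn, pow_succ]
      intro h0
      have h1 : η (σ₀ ^ j) * (1 - η (σ₀ ^ j) ^ P.ℓ) = 0 := by linear_combination h0
      rcases mul_eq_zero.1 h1 with h2 | h2
      · exact hη0 _ h2
      · have h3 : η (σ₀ ^ j) ^ P.ℓ = 1 := (sub_eq_zero.1 h2).symm
        have h4 : η (σ₀ ^ j) = 1 := by
          apply frobenius_inj K P.ℓ
          rw [frobenius_def, frobenius_def, h3, one_pow]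
        rw [hηpow] at h4
        have h5 := orderOf_dvd_of_pow_eq_one h4
        exact absurd (Nat.le_of_dvd hj0 h5) (not_le.2 hjd)
    let T : X →+ X := 𝒟.act (σ₀ ^ j) - n • AddMonoidHom.id X
    have hT : ∀ x, T x = 𝒟.act (σ₀ ^ j) x - n • x := fun x => rfl
    have hinj : Function.Injective T := by
      rw [injective_iff_map_eq_zero]
      intro x hx
      have h1 : u (T x) = (η (σ₀ ^ j) - (n : K)) * u x := by
        rw [hT, map_sub, hact, map_nsmul, nsmul_eq_mul]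
        ring
      rw [hx, map_zero] at h1
      have h2 : u x = 0 := (mul_eq_zero.1 h1.symm).resolve_left hne
      exact hu (by rw [h2, map_zero])
    apply 𝒟.nondeg_right
    intro y
    obtain ⟨x, rfl⟩ := Finite.injective_iff_surjective.1 hinj y
    have h1 := hstar (σ₀ ^ j) n hn x w
    rw [hw] at h1
    rw [hT, sub_eq_add_neg, 𝒟.e_add_left, 𝒟.e_neg_left, 𝒟.e_nsmul_left, h1,
      mul_inv_cancel₀ (pow_ne_zero _ (𝒟.e_ne_zero _ _))]

/-- **A10 for characters.** -/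
theorem vol_of_char (hcard : Nat.card X = P.ℓ ^ 2) (hu : Function.Injective u)
    (hact : ∀ γ x, u (𝒟.act γ x) = η γ * u x) {ζ : Qb} (hζ : IsPrimitiveRoot ζ P.ℓ)
    (hω : ∀ (γ : P.ine) (n : ℕ), (γ : GQ) ζ = ζ ^ n → (n : K) = η γ ^ (P.ℓ + 1))
    (hne : ∃ γ, η γ ≠ 1) {lam : Qb} (hlam : lam ^ (P.ℓ ^ 2 - 1) = -(P.ℓ : Qb)) :
    ∀ x, x ≠ 0 → ∀ a, 𝒟.Sge x a ↔ Dv P a lam := by
  have hnt : Nontrivial X := by
    have h1 : 1 < Nat.card X := by rw [hcard]; exact Nat.one_lt_pow (by norm_num) P.prime.one_lt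
    exact Finite.one_lt_card_iff_nontrivial.1 h1
  obtain ⟨σ₀, hgen⟩ := VolChar_exists_gen 𝒟 u η hu hact
  obtain ⟨-, -, h0⟩ := VolChar_eta_mul 𝒟 u η hu hact
  have hfo : IsOfFinOrder (η σ₀) := by
    have h1 : IsOfFinOrder (Units.mk0 (η σ₀) (h0 σ₀)) := isOfFinOrder_of_finite _
    have h2 := (Units.coeHom K).isOfFinOrder h1
    simpa using h2
  have hd1 : 1 < orderOf (η σ₀) := by
    have hpos := hfo.orderOf_pos
    rcases Nat.lt_or_ge 1 (orderOf (η σ₀)) with h | h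
    · exact h
    · exfalso
      have h1 : orderOf (η σ₀) = 1 := by omega
      rw [orderOf_eq_one_iff] at h1
      obtain ⟨γ, hγ⟩ := hne
      obtain ⟨j, hj⟩ := hgen γ
      exact hγ (by rw [hj, h1, one_pow])
  have hd : ¬ P.ℓ ∣ orderOf (η σ₀) := by
    intro hdvd
    letI := Fintype.ofFinite K
    obtain ⟨n, -, hn⟩ := FiniteField.card K P.ℓ
    have h1 : orderOf (η σ₀) ∣ Fintype.card K - 1 :=
      orderOf_dvd_of_pow_eq_one (FiniteField.pow_card_sub_one_eq_one _ (h0 σ₀))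
    have h2 : P.ℓ ∣ P.ℓ ^ (n : ℕ) - 1 := by
      rw [← hn]
      exact hdvd.trans h1
    have h3 : P.ℓ ∣ P.ℓ ^ (n : ℕ) := dvd_pow_self _ n.ne_zero
    have h4 : 1 ≤ P.ℓ ^ (n : ℕ) := Nat.one_le_pow _ _ P.prime.pos
    have h5 : P.ℓ ∣ 1 := by
      have h6 := Nat.dvd_sub h3 h2
      rwa [Nat.sub_sub_self h4] at h6
    exact P.prime.one_lt.ne' (Nat.dvd_one.1 h5)
  exact ((Vol.vol_main 𝒟 hcard hd hd1 (VolChar_cycFree 𝒟 u η hu hact hgen)
    (VolChar_cycFree' 𝒟 u η hu hact hζ hω hgen)).2 lam hlam).1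

end char

/-- **A10'**: the hypothesis `Vol` of `Flat.lean`.
PROOF.  `Y1 = jj.range` is stable (every `γ ∈ I` is `d0^n s0`: `exists_pow_mul`, `act_mul`), `𝒮 = 𝒟.sub Y1`, `#Y1 = #F = p²`, `K = F`, `u = jj⁻¹` on `Y1`,
`η γ = m^n` for a chosen `n = n(γ)` with `γ = d0^n s0`.  `hω`: apply the injective `ι`: `(n' : FF P) = θ(γ)^(p+1)` (`natCast_eq_theta_pow`), `θ(γ) = g0^n` (`xi_mul`, ...), and
`ι (m^n)^(p+1) = g0^(n(p+1))` resp. `(g0^(n(p+1)))^p = (n')^p = n'`.  `hne`: `γ = d0`, `m ≠ 1`.  `vol_of_char` + `sub_sge`. -/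
theorem vol_of_card {P : Plc} (C : LamCtx P) {F : Type} [Field F] (hF : Nat.card F = P.ℓ ^ 2) (ι : F →+* FF P) :
    Vol C F ι := by
  intro X X' _ _ _ _ 𝒟 jj m hjj hm hd0 hG x hx a hS
  have hfinF : Finite F := Nat.finite_of_card_ne_zero (by
    rw [hF]
    exact pow_ne_zero _ P.prime.ne_zero)
  have hchar : CharP F P.ℓ := (RingHom.charP_iff ι ι.injective P.ℓ).2 inferInstance
  have hdec : ∀ γ : P.ine, ∃ n : ℕ, ∃ s0 ∈ C.Gam0, (γ : GQ) = C.d0 ^ n * s0 :=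
    fun γ => C.exists_pow_mul γ.2
  choose nn s0 hs0 hγ using hdec
  have hpow : ∀ (n : ℕ) (y : F),
      𝒟.act ((⟨C.d0, C.hd0⟩ : P.ine) ^ n) (jj y) = jj (m ^ n * y) := by
    intro n
    induction n with
    | zero =>
      intro y
      rw [pow_zero, pow_zero, one_mul, 𝒟.act_one]
    | succ n ih =>
      intro y
      rw [pow_succ', 𝒟.act_mul, ih, hd0, pow_succ', mul_assoc]
  have hact0 : ∀ (γ : P.ine) (y : F), 𝒟.act γ (jj y) = jj (m ^ nn γ * y) := by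
    intro γ y
    have h1 : γ = (⟨C.d0, C.hd0⟩ : P.ine) ^ nn γ * ⟨s0 γ, C.Gam0_le_ine (hs0 γ)⟩ :=
      Subtype.ext (hγ γ)
    calc 𝒟.act γ (jj y)
        = 𝒟.act ((⟨C.d0, C.hd0⟩ : P.ine) ^ nn γ * ⟨s0 γ, C.Gam0_le_ine (hs0 γ)⟩) (jj y) := by
          rw [← h1]
      _ = jj (m ^ nn γ * y) := by
          rw [𝒟.act_mul, hG _ (hs0 γ), hpow]
  have hst : 𝒟.Stable jj.range := by
    rintro γ _ ⟨y, rfl⟩
    exact ⟨_, (hact0 γ y).symm⟩
  obtain ⟨e, he⟩ : ∃ e : F ≃+ jj.range, ∀ y, ((e y : jj.range) : X) = jj y :=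
    ⟨AddMonoidHom.ofInjective hjj, fun y => rfl⟩
  have hcard : Nat.card jj.range = P.ℓ ^ 2 := by
    rw [← hF]
    exact Nat.card_congr e.toEquiv.symm
  have hactS : ∀ (γ : P.ine) (z : jj.range),
      e.symm.toAddMonoidHom ((𝒟.sub jj.range hst).act γ z) =
        m ^ nn γ * e.symm.toAddMonoidHom z := by
    intro γ z
    obtain ⟨y, rfl⟩ := e.surjective z
    have h1 : (𝒟.sub jj.range hst).act γ (e y) = e (m ^ nn γ * y) := by
      apply Subtype.ext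
      rw [DualPair.sub_act, he, he, hact0]
    rw [h1]
    show e.symm (e _) = _ * e.symm (e y)
    rw [e.symm_apply_apply, e.symm_apply_apply]
  have hθ : ∀ γ : P.ine, C.theta γ = C.g0 ^ nn γ := by
    intro γ
    have h1 : (γ : GQ) C.lam = C.xi C.d0 ^ nn γ * C.lam := by
      rw [hγ γ, AlgEquiv.mul_apply, (hs0 γ).2, C.d0_pow_apply_lam]
    have h2 : C.xi γ = C.xi C.d0 ^ nn γ := by
      rw [LamCtx.xi, h1, mul_div_cancel_right₀ _ C.lam_ne_zero]
    show res P (C.xi γ) = (res P (C.xi C.d0)) ^ nn γ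
    rw [h2, res_pow P (C.v_xi _).le]
  have hω : ∀ (γ : P.ine) (n : ℕ), (γ : GQ) C.zeta = C.zeta ^ n →
      (n : F) = (m ^ nn γ) ^ (P.ℓ + 1) := by
    intro γ n hn
    apply ι.injective
    have h1 := C.natCast_eq_theta_pow γ.2 hn
    rw [hθ γ] at h1
    rw [map_natCast, map_pow, map_pow]
    rcases hm with hm | hm
    · rw [hm, h1]
    · rw [hm]
      have h2 : ((C.g0 ^ P.ℓ) ^ nn γ) ^ (P.ℓ + 1) = ((C.g0 ^ nn γ) ^ (P.ℓ + 1)) ^ P.ℓ := by
        rw [← pow_mul, ← pow_mul, ← pow_mul, ← pow_mul]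
        congr 1
        ring
      rw [h2, ← h1, ← frobenius_def, map_natCast]
  have hp3 := C.three_le
  have he3 : 3 ≤ C.e := by
    rw [C.e_eq]
    have : 2 * 4 ≤ (P.ℓ - 1) * (P.ℓ + 1) := Nat.mul_le_mul (by omega) (by omega)
    omega
  have hne : ∃ γ : P.ine, m ^ nn γ ≠ 1 := by
    refine ⟨⟨C.d0, C.hd0⟩, fun h1 => ?_⟩
    have h2 := hact0 ⟨C.d0, C.hd0⟩ 1
    rw [h1, hd0] at h2
    have h3 : m = 1 := by simpa using hjj h2
    rw [h3, map_one] at hm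
    rcases hm with hm | hm
    · have h4 := (C.g0_prim.pow_eq_one_iff_dvd 1).1 (by rw [pow_one, ← hm])
      have := Nat.le_of_dvd one_pos h4
      omega
    · have h4 := (C.g0_prim.pow_eq_one_iff_dvd P.ℓ).1 hm.symm
      rcases (Nat.Prime.eq_one_or_self_of_dvd P.prime _ h4) with h5 | h5
      · omega
      · exact C.not_dvd_e (by rw [h5])
  have hx0 : (e x : jj.range) ≠ 0 := by
    intro h0
    exact hx (e.map_eq_zero_iff.1 h0)
  have hmain := vol_of_char (𝒟.sub jj.range hst) e.symm.toAddMonoidHom (fun γ => m ^ nn γ) hcard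
    e.symm.injective hactS C.hzeta hω hne C.hlam (e x) hx0 a
  refine hmain.1 ((𝒟.sub_sge jj.range hst (e x) a).2 ?_)
  rw [he]
  exact hS

end Fermat.Agent.S56.F.SS

end
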