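/-
S56 block (F), F-D: THE CONTRACT IN THE SUPERSINGULAR CASE, from the classification (`SSData` for a conjugate of `r`).
-/
import Fermat.Agent.S56.F.SS.VolChar
import Fermat.Agent.S56.F.SS.Conj

set_option autoImplicit false

open Fermat.Agent.PT.Local Matrix
open Fermat.Agent.S53 (G M2)
open Fermat.Agent.S56.C (ad rm IsCoc)

noncomputable section

namespace Fermat.Agent.S56.F.SS

variable {P : Plc} {k : Type} [Field k] {r : G →* GL (Fin 2) k}

/-- `LocCoc` only depends on `c|D`. -/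
theorem LocCoc.congr {c c' : G → M2 k} (h : ∀ σ ∈ P.dec, c σ = c' σ) (hc : LocCoc P r c) : LocCoc P r c' := by
  refine ⟨fun g hg g' hg' => ?_, ?_, fun g hg => ?_⟩
  · rw [← h _ (P.dec.mul_mem hg hg'), ← h g hg, ← h g' hg']
    exact hc.coc g hg g' hg'
  · obtain ⟨N, hN, hcN⟩ := hc.smooth
    exact ⟨N, hN, fun σ hσ hx => by rw [← h σ hσ]; exact hcN σ hσ hx⟩
  · rw [← h g hg]
    exact hc.tr0 g hg

/-- `LL` only depends on `c|D`. -/
theorem LL.congr {C : LamCtx P} {F : Type} [Field F] [Algebra F k] {τ : F →+ ZMod P.ℓ} {c c' : G → M2 k}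
    (h : ∀ σ ∈ P.dec, c σ = c' σ) (hc : LL C τ r c) : LL C τ r c' := by
  refine ⟨hc.1.congr h, fun s hs => ?_, fun l' => ?_⟩
  · rw [← h s (C.Gam0_le_dec hs)]
    exact hc.2.1 s hs
  · refine (hc.2.2 l').congr fun s hs => ?_
    rw [h s (C.Gam0_le_dec hs)]

/-- `#H⁰ ≥ 1`. -/
theorem one_le_card_H0 [Finite k] (D : Subgroup G) :
    1 ≤ Nat.card {X : M2 k // X.trace = 0 ∧ ∀ σ ∈ D, ad (r σ) X = X} := by
  have : Nonempty {X : M2 k // X.trace = 0 ∧ ∀ σ ∈ D, ad (r σ) X = X} :=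
    ⟨⟨0, by simp, fun σ _ => ad_zero _⟩⟩
  exact Nat.one_le_iff_ne_zero.2 Nat.card_pos.ne'

/-- **The contract from the classification.** -/
theorem funContract_of_data [Finite k] {C : LamCtx P} {F : Type} [Field F] [Algebra F k] (Bm : GL (Fin 2) k)
    (S : SSData C F k (conjRep Bm r)) :
    Fermat.Agent.S56.B.FunContract r P.dec 1 (PrFlat P.ℓ r) := by
  classical
  have hvol := vol_of_card C S.cardF S.ι
  have hF := S.charP_F
  have hk := S.charP_k
  have h2 : (2 : k) ≠ 0 := by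
    intro h
    have h3 : ((2 : ℕ) : k) = 0 := by exact_mod_cast h
    rw [CharP.cast_eq_zero_iff k P.ℓ] at h3
    exact C.hodd ((Nat.prime_dvd_prime_iff_eq P.prime Nat.prime_two).1 h3)
  obtain ⟨τ, hτ⟩ : ∃ τ : F →+ ZMod P.ℓ, τ ≠ 0 := by
    obtain ⟨l, hl⟩ := exists_functional (p := P.ℓ) (k := F) (x := 1) one_ne_zero
    exact ⟨l, fun h => hl (by rw [h]; rfl)⟩
  obtain ⟨T, hT, hcov⟩ := LL_count S hτ
  refine ⟨⟨fun c => LL C τ (conjRep Bm r) (conjCoc Bm c), ?_, ?_, ?_⟩, ?_, T.image (conjCoc Bm⁻¹), ?_, ?_⟩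
  · intro c c' h h'
    rw [conjCoc_add]
    exact h.add h'
  · intro X _
    rw [conjCoc_cob]
    exact LL_cob S _
  · intro c c' h hc
    exact hc.congr fun σ hσ => by simp only [conjCoc, h σ hσ]
  · rintro c ⟨hc, hs, ht, hfl⟩
    exact LL_of_flat S hvol (locCoc_conj P hc hs ht) (flatE_conj (flatE_of_flatAt hfl)) τ
  · calc (T.image (conjCoc Bm⁻¹)).card ≤ T.card := Finset.card_image_le
      _ ≤ Nat.card k := hT
      _ = 1 * Nat.card k ^ 1 := by ring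
      _ ≤ _ := Nat.mul_le_mul_right _ (one_le_card_H0 P.dec)
  · intro c hc
    obtain ⟨t, ht, hcob⟩ := hcov _ hc
    exact ⟨conjCoc Bm⁻¹ t, Finset.mem_image_of_mem _ ht, cob_of_cobOn_conj P h2 hcob⟩

/-- If no cocycle is flat, the coboundaries do. -/
theorem funContract_of_no_flat [Finite k] (h : ∀ c, ¬ PrFlat P.ℓ r c) :
    Fermat.Agent.S56.B.FunContract r P.dec 1 (PrFlat P.ℓ r) := by
  classical
  refine ⟨⟨fun c => ∃ X : M2 k, X.trace = 0 ∧ ∀ σ ∈ P.dec, c σ = ad (r σ) X - X, ?_, ?_, ?_⟩, ?_, {0}, ?_, ?_⟩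
  · rintro c c' ⟨X, hX, hc⟩ ⟨X', hX', hc'⟩
    refine ⟨X + X', by rw [Matrix.trace_add, hX, hX', add_zero], fun σ hσ => ?_⟩
    rw [Pi.add_apply, hc σ hσ, hc' σ hσ, ad_add]
    abel
  · intro X hX
    exact ⟨X, hX, fun _ _ => rfl⟩
  · rintro c c' h ⟨X, hX, hc⟩
    exact ⟨X, hX, fun σ hσ => by rw [← h σ hσ, hc σ hσ]⟩
  · intro c hc
    exact absurd hc (h c)
  · rw [Finset.card_singleton]
    have h1 := one_le_card_H0 (r := r) P.dec
    have h2 : 1 ≤ Nat.card k ^ 1 := Nat.one_le_iff_ne_zero.2 (pow_ne_zero _ Nat.card_pos.ne')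
    calc 1 = 1 * 1 := rfl
      _ ≤ _ := Nat.mul_le_mul h1 h2
  · rintro c ⟨X, hX, hc⟩
    exact ⟨0, Finset.mem_singleton_self _, X, hX, fun σ hσ => by rw [Pi.zero_apply, sub_zero, hc σ hσ]⟩

/-- The classification statement (F-0, CASE I), produced by `S56/F/SS0`. -/
def Classif (P : Plc) {k : Type} [Field k] (r : G →* GL (Fin 2) k) : Prop :=
  ∃ (C : LamCtx P) (F : Type) (_ : Field F) (_ : Algebra F k) (Bm : GL (Fin 2) k),
    Nonempty (SSData C F k (conjRep Bm r))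

/-- **F-D**, modulo the classification. -/
theorem funContract_of_classif [Finite k] (hcl : ∀ c, FlatE P.ℓ r c → Classif P r) :
    Fermat.Agent.S56.B.FunContract r P.dec 1 (PrFlat P.ℓ r) := by
  by_cases h : ∃ c, PrFlat P.ℓ r c
  · obtain ⟨c, -, -, -, hfl⟩ := h
    obtain ⟨C, F, _, _, Bm, ⟨S⟩⟩ := hcl c (flatE_of_flatAt hfl)
    exact funContract_of_data Bm S
  · exact funContract_of_no_flat (not_exists.1 h)

end Fermat.Agent.S56.F.SS

end
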