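/-
S56 block (F), F-0 CASE I, part 1 (T1): if `r` is the residual representation of a flat lift and no line is stable under `D`, then there is a level `a` such that
every `γ ∈ I` satisfies: `Q(θ(a,γ)) = 0 ⟹ Q(r γ) = 0` for `Q ∈ ℤ[T]`.
-/
import Fermat.Agent.S56.F.SS.Conj
import Fermat.Agent.S56.F.LF.All

set_option autoImplicit false

open Fermat.Agent.PT.Local Matrix
open Fermat.Agent.S53 (G M2)
open Fermat.Agent.S56.C (ad rm IsCoc)

noncomputable section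

namespace Fermat.Agent.S56.F.SS

variable {P : Plc} {k : Type} [Field k] {r : G →* GL (Fin 2) k} {c : G → M2 k}

/-- `ε E = {(0, b)}`. -/
def Yeps (k : Type) [Field k] : AddSubgroup (E2 k) where
  carrier := {x | x.1 = 0}
  zero_mem' := rfl
  add_mem' := by
    intro x y hx hy
    show (x + y).1 = 0
    rw [Prod.fst_add, hx, hy, add_zero]
  neg_mem' := by
    intro x hx
    show (-x).1 = 0
    rw [Prod.fst_neg, hx, neg_zero]

theorem actE_eps (σ : G) (b : Fin 2 → k) : actE r c σ (0, b) = (0, rm r σ *ᵥ b) := by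
  refine Prod.ext ?_ ?_
  · simp
  · simp

/-- `Q(act γ) (0, b) = (0, Q(r γ) b)`. (Induction on `Q`: `Polynomial.induction_on`.) -/
theorem aeval_actE_eps {Γ : Subgroup GQ} {X' : Type} [AddCommGroup X'] [Finite k] [Finite X']
    (𝒟 : DualPair P Γ (E2 k) X') (hact : ∀ (γ : Γ) (x : E2 k), 𝒟.act γ x = actE r c γ x) (γ : Γ)
    (Q : Polynomial ℤ) (b : Fin 2 → k) :
    Polynomial.aeval (𝒟.actE γ) Q ((0, b) : E2 k) = (0, Polynomial.aeval (rm r γ) Q *ᵥ b) := by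
  have hT : ∀ b : Fin 2 → k, 𝒟.actE γ ((0, b) : E2 k) = (0, rm r γ *ᵥ b) := fun b => by
    rw [DualPair.actE_apply, hact, actE_eps]
  have hpow : ∀ (n : ℕ) (b : Fin 2 → k), (𝒟.actE γ ^ n) ((0, b) : E2 k) = (0, (rm r γ ^ n) *ᵥ b) := by
    intro n
    induction n with
    | zero => intro b; simp
    | succ n ih =>
      intro b
      rw [pow_succ]
      change (𝒟.actE γ ^ n) (𝒟.actE γ ((0, b) : E2 k)) = _
      rw [hT, ih, pow_succ, Matrix.mulVec_mulVec]
  induction Q using Polynomial.induction_on' with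
  | add p q hp hq =>
    rw [map_add, map_add]
    change (Polynomial.aeval (𝒟.actE γ)) p ((0, b) : E2 k) + (Polynomial.aeval (𝒟.actE γ)) q ((0, b) : E2 k) = _
    rw [hp, hq, Matrix.add_mulVec]
    simp
  | monomial n a =>
    rw [Polynomial.aeval_monomial, Polynomial.aeval_monomial, eq_intCast, eq_intCast]
    change ((a : AddMonoid.End (E2 k))) ((𝒟.actE γ ^ n) ((0, b) : E2 k)) = _
    rw [hpow, AddMonoid.End.intCast_apply, ← Matrix.mulVec_mulVec]
    have h1 : ((a : M2 k)) = (a : k) • (1 : M2 k) := by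
      rw [Int.cast_smul_eq_zsmul, zsmul_one]
    rw [h1, Matrix.smul_mulVec, Matrix.one_mulVec, Int.cast_smul_eq_zsmul]
    refine Prod.ext ?_ ?_
    · simp
    · simp

theorem Top_rm_mul (σ τ : G) : rm r (σ * τ) = rm r σ * rm r τ := by
  simp [rm]

theorem Top_eq_zero_of_mulVec {M : M2 k} {b0 b1 : Fin 2 → k} (hb0 : b0 ≠ 0) (hb1 : ∀ x : k, b1 ≠ x • b0)
    (h0 : M *ᵥ b0 = 0) (h1 : M *ᵥ b1 = 0) : M = 0 := by
  have hdet : b0 0 * b1 1 - b0 1 * b1 0 ≠ 0 := by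
    intro hd
    by_cases h00 : b0 0 = 0
    · have h01 : b0 1 ≠ 0 := by
        intro h01
        apply hb0
        ext i
        fin_cases i <;> simp [h00, h01]
      rw [h00, zero_mul, zero_sub, neg_eq_zero, mul_eq_zero] at hd
      have h10 : b1 0 = 0 := hd.resolve_left h01
      apply hb1 (b1 1 / b0 1)
      ext i
      fin_cases i
      · simp [h00, h10]
      · simp [div_mul_cancel₀ _ h01]
    · apply hb1 (b1 0 / b0 0)
      ext i
      fin_cases i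
      · simp [div_mul_cancel₀ _ h00]
      · simp only [Fin.mk_one, Fin.isValue, Pi.smul_apply, smul_eq_mul]
        field_simp
        linear_combination hd
  have e0 : ∀ i, M i 0 * b0 0 + M i 1 * b0 1 = 0 := fun i => by
    have := congrFun h0 i
    simpa [Matrix.mulVec, dotProduct, Fin.sum_univ_two] using this
  have e1 : ∀ i, M i 0 * b1 0 + M i 1 * b1 1 = 0 := fun i => by
    have := congrFun h1 i
    simpa [Matrix.mulVec, dotProduct, Fin.sum_univ_two] using this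
  ext i j
  fin_cases j
  · have : M i 0 * (b0 0 * b1 1 - b0 1 * b1 0) = 0 := by
      linear_combination b1 1 * e0 i - b0 1 * e1 i
    simpa using (mul_eq_zero.1 this).resolve_right hdet
  · have : M i 1 * (b0 0 * b1 1 - b0 1 * b1 0) = 0 := by
      linear_combination b0 0 * e1 i - b1 0 * e0 i
    simpa using (mul_eq_zero.1 this).resolve_right hdet

/-- A line stable under `I` and a Frobenius element is stable under `D` (`frob_gen_ell` with the level of `r`). -/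
theorem caseR_of_stable (hr : Fermat.Agent.S56.B.RSmooth r) {φ : G} (hφ : IsFrob P P.ℓ φ) {v : Fin 2 → k}
    (hv : v ≠ 0) (hI : ∀ γ ∈ P.ine, ∃ x : k, rm r γ *ᵥ v = x • v) (hφv : ∃ x : k, rm r φ *ᵥ v = x • v) :
    CaseR P r := by
  obtain ⟨N, hN, hrN⟩ := hr
  refine ⟨v, hv, fun σ hσ => ?_⟩
  obtain ⟨j, τ, hτ, u, -, hu, rfl⟩ := frob_gen_ell P hφ N hσ
  have hmul : ∀ a b : G, (∃ x : k, rm r a *ᵥ v = x • v) → (∃ x : k, rm r b *ᵥ v = x • v) →
      ∃ x : k, rm r (a * b) *ᵥ v = x • v := by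
    rintro a b ⟨x, hx⟩ ⟨y, hy⟩
    exact ⟨y * x, by rw [Top_rm_mul, ← Matrix.mulVec_mulVec, hy, Matrix.mulVec_smul, hx, smul_smul]⟩
  have hpow : ∀ j : ℕ, ∃ x : k, rm r (φ ^ j) *ᵥ v = x • v := by
    intro j
    induction j with
    | zero => exact ⟨1, by simp [rm]⟩
    | succ j ih => rw [pow_succ]; exact hmul _ _ ih hφv
  refine hmul _ _ (hmul _ _ (hpow j) (hI τ hτ)) ⟨1, ?_⟩
  have : r u = 1 := hrN u hu
  simp [rm, this]

/-- every `r σ` has an eigenvector (`Split`). -/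
theorem exists_eigenvector (hs : Split r) (σ : G) : ∃ v : Fin 2 → k, v ≠ 0 ∧ ∃ x : k, rm r σ *ᵥ v = x • v := by
  obtain ⟨α, β, h⟩ := hs σ
  have h1 : (rm r σ).charpoly.eval α = 0 := by rw [h]; simp
  rw [Matrix.eval_charpoly] at h1
  obtain ⟨v, hv, hv0⟩ := Matrix.exists_mulVec_eq_zero_iff.2 h1
  refine ⟨v, hv, α, ?_⟩
  rw [Matrix.sub_mulVec, sub_eq_zero] at hv0
  rw [← hv0]
  ext i
  simp [Matrix.scalar_apply, Matrix.mulVec, dotProduct, Matrix.diagonal_apply]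

/-- If `r(I)` consists of scalar matrices then CASE R. -/
theorem caseR_of_scalar (hr : Fermat.Agent.S56.B.RSmooth r) (hs : Split r)
    (h : ∀ γ ∈ P.ine, ∃ x : k, rm r γ = x • (1 : M2 k)) : CaseR P r := by
  obtain ⟨φ, hφ⟩ := exists_frob_ell P
  obtain ⟨v, hv, hx⟩ := exists_eigenvector hs φ
  refine caseR_of_stable hr hφ hv (fun γ hγ => ?_) hx
  obtain ⟨x, hx⟩ := h γ hγ
  exact ⟨x, by rw [hx, Matrix.smul_mulVec, Matrix.one_mulVec]⟩

section top

variable [Finite k] {X' : Type} [AddCommGroup X'] [Finite X'] (𝒟 : DualPair P P.dec (E2 k) X')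
  (hact : ∀ (γ : P.dec) (x : E2 k), 𝒟.act γ x = actE r c γ x)

include hact in
theorem stable_Yeps : 𝒟.Stable (Yeps k) := by
  intro γ x hx
  have hx' : x = (0, x.2) := Prod.ext hx rfl
  rw [hact, hx', actE_eps]
  rfl

include hact in
/-- the deepest level of `ε E` (`exists_top` for `𝒟.sub (Yeps k)`, `sub_sge`). -/
theorem exists_top_eps :
    ∃ a : Qb, a ≠ 0 ∧ (∃ b : Fin 2 → k, b ≠ 0 ∧ 𝒟.Sge (0, b) a) ∧
      ∀ (b : Fin 2 → k) (z : Qb), InM P z → 𝒟.Sge (0, b) (a * z) → b = 0 := by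
  have hst := stable_Yeps 𝒟 hact
  have : Nontrivial (Yeps k) := by
    refine ⟨⟨⟨(0, fun _ => 1), rfl⟩, 0, fun h => ?_⟩⟩
    have h1 := congrArg (fun x : Yeps k => (x : E2 k).2 0) h
    simp at h1
  obtain ⟨a, ha, ⟨x, hx, hxa⟩, htop⟩ := (𝒟.sub (Yeps k) hst).exists_top
  refine ⟨a, ha, ⟨(x : E2 k).2, ?_, ?_⟩, fun b z hz hb => ?_⟩
  · intro h0
    apply hx
    apply Subtype.ext
    exact Prod.ext x.2 h0
  · have h1 : ((0, (x : E2 k).2) : E2 k) = (x : E2 k) := Prod.ext x.2.symm rfl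
    rw [h1]
    exact (𝒟.sub_sge (Yeps k) hst x a).1 hxa
  · have h1 := htop ⟨(0, b), rfl⟩ z hz ((𝒟.sub_sge (Yeps k) hst ⟨(0, b), rfl⟩ (a * z)).2 hb)
    have h2 := congrArg (fun x : Yeps k => (x : E2 k).2) h1
    simpa using h2

include hact in
/-- etale case: if the deepest level `a` is not in the maximal ideal, inertia acts trivially on `ε E` (`act_eq_of_etale` for `𝒟.sub (Yeps k)`:
`Conn x` means `Sge x z`, `InM z`; write `z = a (z/a)`, `v(z/a) ≤ v z < 1`). -/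
theorem ine_trivial_of_etale {a : Qb} (ha : a ≠ 0) (ha1 : ¬ InM P a)
    (htop : ∀ (b : Fin 2 → k) (z : Qb), InM P z → 𝒟.Sge (0, b) (a * z) → b = 0) :
    ∀ γ ∈ P.ine, rm r γ = 1 := by
  intro γ hγ
  have hst := stable_Yeps 𝒟 hact
  have het : ∀ x, (𝒟.sub (Yeps k) hst).Conn x → x = 0 := by
    rintro x ⟨z, hz, hx⟩
    have hx' := (𝒟.sub_sge (Yeps k) hst x z).1 hx
    have h1 : ((0, (x : E2 k).2) : E2 k) = (x : E2 k) := Prod.ext x.2.symm rfl
    have hza : InM P (z / a) := by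
      unfold InM at *
      rw [map_div₀]
      have hva : 1 ≤ P.v a := not_lt.1 ha1
      have hva0 : 0 < P.v a := lt_of_lt_of_le zero_lt_one hva
      calc P.v z / P.v a ≤ P.v z := by
            rw [div_le_iff₀ hva0]
            exact le_mul_of_one_le_right zero_le hva
        _ < 1 := hz
    have h2 := htop (x : E2 k).2 (z / a) hza (by rw [h1, mul_div_cancel₀ _ ha]; exact hx')
    apply Subtype.ext
    exact Prod.ext x.2 h2
  have key := (𝒟.sub (Yeps k) hst).act_eq_of_etale het ⟨γ, ine_le_dec P hγ⟩ hγ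
  have h3 : ∀ b : Fin 2 → k, rm r γ *ᵥ b = b := by
    intro b
    have h4 := congrArg (fun x : Yeps k => (x : E2 k)) (key ⟨(0, b), rfl⟩)
    simp only [𝒟.sub_act, hact, actE_eps] at h4
    exact congrArg Prod.snd h4
  ext i j
  have := congrFun (h3 (Pi.single j 1)) i
  simpa [Matrix.one_apply, Pi.single_apply, eq_comm] using this

include hact in
/-- **T1'.**  PROOF.  `b0 ≠ 0` of level `a`.  As the line `k b0` is not `D`-stable there is `σ ∈ D` with `b1 = r σ b0 ∉ k b0`; `(0, b1) = act σ (0, b0)` has level `a` (`Sge.act`).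
For `i = 0, 1`: `tame` gives `z`, `InM z`, `Sge (Q(act γ)(0, b_i)) (a z)`, and `Q(act γ)(0,b_i) = (0, Q(r γ) b_i)` (`aeval_actE_eps`), so `Q(r γ) b_i = 0` by `htop`.
`b0, b1` is a basis of `k²`, so `Q(r γ) = 0`. -/
theorem aeval_eq_zero_of_top (hI : ¬ CaseR P r) {a : Qb} (ha : a ≠ 0) (ha1 : InM P a)
    (hb : ∃ b : Fin 2 → k, b ≠ 0 ∧ 𝒟.Sge (0, b) a)
    (htop : ∀ (b : Fin 2 → k) (z : Qb), InM P z → 𝒟.Sge (0, b) (a * z) → b = 0) :
    ∀ γ ∈ P.ine, ∀ Q : Polynomial ℤ, InM P (Polynomial.aeval (γ a / a) Q) → Polynomial.aeval (rm r γ) Q = 0 := by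
  intro γ hγ Q hQ
  obtain ⟨b0, hb0, hS0⟩ := hb
  have hex : ∃ σ ∈ P.dec, ∀ x : k, rm r σ *ᵥ b0 ≠ x • b0 := by
    by_contra hcon
    push Not at hcon
    exact hI ⟨b0, hb0, hcon⟩
  obtain ⟨σ, hσ, hσb⟩ := hex
  have hS1 : 𝒟.Sge (0, rm r σ *ᵥ b0) a := by
    have := DualPair.Sge.act 𝒟 (le_refl _) hS0 ⟨σ, hσ⟩
    rwa [hact, actE_eps] at this
  have key : ∀ b : Fin 2 → k, 𝒟.Sge (0, b) a → Polynomial.aeval (rm r γ) Q *ᵥ b = 0 := by
    intro b hS
    obtain ⟨z, hz, hSz⟩ := 𝒟.tame (le_refl _) ⟨γ, ine_le_dec P hγ⟩ hγ ha ha1 hS Q hQ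
    rw [aeval_actE_eps 𝒟 hact] at hSz
    exact htop _ z hz hSz
  exact Top_eq_zero_of_mulVec hb0 hσb (key _ hS0) (key _ hS1)

end top

/-- **F-0, CASE I, part 1.** -/
theorem exists_tame_level [Finite k] (hfl : FlatE P.ℓ r c) (hr : Fermat.Agent.S56.B.RSmooth r) (hs : Split r)
    (hI : ¬ CaseR P r) :
    ∃ a : Qb, a ≠ 0 ∧ ∀ γ ∈ P.ine, ∀ Q : Polynomial ℤ, InM P (Polynomial.aeval (γ a / a) Q) →
      Polynomial.aeval (rm r γ) Q = 0 := by
  obtain ⟨X', _, _, 𝒟, hact⟩ := exists_dualPair_of_flatMod P P.dec (actE r c) hfl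
  obtain ⟨a, ha, hb, htop⟩ := exists_top_eps 𝒟 hact
  by_cases ha1 : InM P a
  · exact ⟨a, ha, aeval_eq_zero_of_top 𝒟 hact hI ha ha1 hb htop⟩
  · exfalso
    refine hI (caseR_of_scalar hr hs fun γ hγ => ⟨1, ?_⟩)
    rw [ine_trivial_of_etale 𝒟 hact ha ha1 htop γ hγ, one_smul]

end Fermat.Agent.S56.F.SS

end
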